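/-
S41 (level raising), block PD (the pairing), part 1 (helper6): potentials.

For a group `G`, subgroups `P, Γ ≤ G` and a homomorphism `φ : Γ → A` a *`P`-potential* of `φ` is a
function `H : G → A` with `H (g γ) = H g + φ γ` and `H (p g) = H g` for `p ∈ P`.  It exists as soon
as `φ` kills every element of `Γ` conjugate into `P`.

`sumX Γ F = ∑_{x ∈ G/Γ} F (rep x)` for right-`Γ`-invariant `F`, with the reindexing lemma.
-/
import Mathlib
import Fermat.Agent.ProgramR.ES.Cocycle

set_option autoImplicit false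

namespace Fermat.Agent.S41lib.PD

open Fermat.Agent.ProgramR.ES

section Generic

variable {G : Type*} [Group G] {A : Type*} [AddCommGroup A]

/-- `H` is a potential of `φ`, invariant under left multiplication by `P`. -/
structure IsPotential (P Γ : Subgroup G) (φ : Additive Γ →+ A) (H : G → A) : Prop where
  mul_right : ∀ (g : G) (γ : Γ), H (g * (γ : G)) = H g + φ (Additive.ofMul γ)
  mul_left : ∀ p ∈ P, ∀ g : G, H (p * g) = H g

namespace IsPotential

variable {P Γ : Subgroup G} {φ φ' : Additive Γ →+ A} {H H' : G → A}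

lemma add (h : IsPotential P Γ φ H) (h' : IsPotential P Γ φ' H') :
    IsPotential P Γ (φ + φ') (H + H') where
  mul_right g γ := by
    simp only [Pi.add_apply, AddMonoidHom.add_apply, h.mul_right, h'.mul_right]
    abel
  mul_left p hp g := by
    simp only [Pi.add_apply, h.mul_left p hp, h'.mul_left p hp]

lemma neg (h : IsPotential P Γ φ H) : IsPotential P Γ (-φ) (-H) where
  mul_right g γ := by
    simp only [Pi.neg_apply, AddMonoidHom.neg_apply, h.mul_right]
    abel
  mul_left p hp g := by
    simp only [Pi.neg_apply, h.mul_left p hp]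

lemma sub (h : IsPotential P Γ φ H) (h' : IsPotential P Γ φ' H') :
    IsPotential P Γ (φ - φ') (H - H') := by
  rw [sub_eq_add_neg, sub_eq_add_neg]
  exact h.add h'.neg

lemma zsmul (n : ℤ) (h : IsPotential P Γ φ H) : IsPotential P Γ (n • φ) (n • H) where
  mul_right g γ := by
    simp only [Pi.smul_apply, AddMonoidHom.smul_apply, h.mul_right, smul_add]
  mul_left p hp g := by
    simp only [Pi.smul_apply, h.mul_left p hp]

lemma zero : IsPotential P Γ (0 : Additive Γ →+ A) (0 : G → A) where
  mul_right g γ := by simp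
  mul_left p hp g := rfl

/-- A potential of `0` is right `Γ`-invariant. -/
lemma right_inv_of_zero (h : IsPotential P Γ (0 : Additive Γ →+ A) H) (g : G) (γ : Γ) :
    H (g * (γ : G)) = H g := by
  rw [h.mul_right]; simp

lemma mul_right_mem (h : IsPotential P Γ φ H) (g : G) {γ : G} (hγ : γ ∈ Γ) :
    H (g * γ) = H g + φ (Additive.ofMul (⟨γ, hγ⟩ : Γ)) :=
  h.mul_right g ⟨γ, hγ⟩

/-- Composition with a homomorphism of coefficient groups. -/
lemma map {B : Type*} [AddCommGroup B] (f : A →+ B) (h : IsPotential P Γ φ H) :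
    IsPotential P Γ (f.comp φ) (fun g => f (H g)) where
  mul_right g γ := by
    simp only [h.mul_right, map_add, AddMonoidHom.comp_apply]
  mul_left p hp g := by
    simp only [h.mul_left p hp]

/-- Restriction to a subgroup `Γ' ≤ Γ`. -/
lemma restrict {Γ' : Subgroup G} (hle : Γ' ≤ Γ) (h : IsPotential P Γ φ H) :
    IsPotential P Γ' (φ.comp (Subgroup.inclusion hle).toAdditive) H where
  mul_right g γ := by
    have := h.mul_right g (Subgroup.inclusion hle γ)
    simpa using this
  mul_left := h.mul_left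

end IsPotential

/-- **Existence of potentials**: if `φ` kills every element of `Γ` which is conjugate into `P`,
then `φ` has a `P`-potential. -/
theorem exists_isPotential (P Γ : Subgroup G) (φ : Additive Γ →+ A)
    (hφ : ∀ (γ : Γ) (g : G), g * (γ : G) * g⁻¹ ∈ P → φ (Additive.ofMul γ) = 0) :
    ∃ H : G → A, IsPotential P Γ φ H := by
  classical
  -- for every `g`, choose `h ∈ P`, `k ∈ Γ` with `out (mk g) = h * g * k`
  have hex : ∀ g : G, ∃ k : Γ, ∃ h ∈ P,
      (DoubleCoset.mk P Γ g : DoubleCoset.Quotient (P : Set G) Γ).out = h * g * (k : G) := by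
    intro g
    obtain ⟨h, k, hh, hk, e⟩ := DoubleCoset.mk_out_eq_mul P Γ g
    exact ⟨⟨k, hk⟩, h, hh, e⟩
  choose kf hkf using hex
  refine ⟨fun g => - φ (Additive.ofMul (kf g)), ?_⟩
  -- the key compatibility
  have key : ∀ (g : G) (p : G) (_ : p ∈ P) (γ : Γ),
      φ (Additive.ofMul (kf (p * g * (γ : G)))) = φ (Additive.ofMul (kf g)) - φ (Additive.ofMul γ) := by
    intro g p hp γ
    obtain ⟨h, hh, e⟩ := hkf g
    obtain ⟨h', hh', e'⟩ := hkf (p * g * (γ : G))
    have hmk : (DoubleCoset.mk P Γ (p * g * (γ : G)) : DoubleCoset.Quotient (P : Set G) Γ) = DoubleCoset.mk P Γ g := by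
      rw [eq_comm, DoubleCoset.eq]
      exact ⟨p, hp, γ, γ.2, rfl⟩
    rw [hmk, e] at e'
    -- `h * g * k = h' * (p * g * γ) * k'`
    set k := kf g with hk
    set k' := kf (p * g * (γ : G)) with hk'
    -- element `γ * k' * k⁻¹` is conjugate into `P`
    have hconj : g * ((γ * k' * k⁻¹ : Γ) : G) * g⁻¹ = (h' * p)⁻¹ * h := by
      have e2 : h * g * (k : G) = h' * p * g * ((γ : G) * (k' : G)) := by
        rw [e']; group
      have e3 : g * ((γ : G) * (k' : G)) = (h' * p)⁻¹ * (h * g * (k : G)) := by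
        rw [e2]; group
      push_cast
      calc g * ((γ : G) * (k' : G) * (k : G)⁻¹) * g⁻¹
          = (g * ((γ : G) * (k' : G))) * (k : G)⁻¹ * g⁻¹ := by group
        _ = (h' * p)⁻¹ * (h * g * (k : G)) * (k : G)⁻¹ * g⁻¹ := by rw [e3]
        _ = (h' * p)⁻¹ * h := by group
    have hmem : g * ((γ * k' * k⁻¹ : Γ) : G) * g⁻¹ ∈ P := by
      rw [hconj]
      exact P.mul_mem (P.inv_mem (P.mul_mem hh' hp)) hh
    have h0 := hφ (γ * k' * k⁻¹) g hmem
    rw [ofMul_mul, ofMul_mul, map_add, map_add, ofMul_inv, map_neg] at h0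
    have : φ (Additive.ofMul k') = φ (Additive.ofMul k) - φ (Additive.ofMul γ) := by
      have h1 : φ (Additive.ofMul k') =
          (φ (Additive.ofMul γ) + φ (Additive.ofMul k') + -φ (Additive.ofMul k)) +
            (φ (Additive.ofMul k) - φ (Additive.ofMul γ)) := by abel
      rw [h1, h0, zero_add]
    exact this
  constructor
  · intro g γ
    have := key g 1 P.one_mem γ
    rw [one_mul] at this
    show -φ (Additive.ofMul (kf (g * (γ : G)))) = -φ (Additive.ofMul (kf g)) + φ (Additive.ofMul γ)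
    rw [this]; abel
  · intro p hp g
    have := key g p hp 1
    simp only [OneMemClass.coe_one, mul_one, ofMul_one, map_zero, sub_zero] at this
    show -φ (Additive.ofMul (kf (p * g))) = -φ (Additive.ofMul (kf g))
    rw [this]

end Generic

section SumX

variable {G : Type*} [Group G] (Γ : Subgroup G)
variable {B : Type*}

/-- A function on `G` is right `Γ`-invariant. -/
def RightInv (F : G → B) : Prop := ∀ (g : G) (γ : Γ), F (g * (γ : G)) = F g

variable {Γ}

lemma RightInv.eq_of_mk_eq {F : G → B} (hF : RightInv Γ F) {g g' : G}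
    (h : (QuotientGroup.mk g : G ⧸ Γ) = QuotientGroup.mk g') : F g = F g' := by
  have hmem : g⁻¹ * g' ∈ Γ := QuotientGroup.eq.mp h
  have := hF g ⟨_, hmem⟩
  simp only [mul_inv_cancel_left] at this
  exact this.symm

lemma RightInv.apply_rep {F : G → B} (hF : RightInv Γ F) (g : G) :
    F (rep Γ (QuotientGroup.mk g)) = F g :=
  hF.eq_of_mk_eq (mk_rep Γ _)

lemma RightInv.comp_mul_left {F : G → B} (hF : RightInv Γ F) (h : G) :
    RightInv Γ (fun g => F (h * g)) := by
  intro g γ
  show F (h * (g * (γ : G))) = F (h * g)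
  rw [← mul_assoc, hF]

variable (Γ) in
/-- `∑_{x ∈ G/Γ} F (rep x)`. -/
noncomputable def sumX [Fintype (G ⧸ Γ)] [AddCommMonoid B] (F : G → B) : B :=
  ∑ x : G ⧸ Γ, F (rep Γ x)

variable [Fintype (G ⧸ Γ)] [AddCommMonoid B]

/-- Reindexing: for right-invariant `F`, `∑_x F (h · rep x) = ∑_x F (rep x)`. -/
lemma sumX_mul_left {F : G → B} (hF : RightInv Γ F) (h : G) :
    sumX Γ (fun g => F (h * g)) = sumX Γ F := by
  unfold sumX
  have e : ∀ x : G ⧸ Γ, F (h * rep Γ x) = F (rep Γ (h • x)) := by
    intro x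
    apply hF.eq_of_mk_eq
    rw [mk_rep, ← smul_mk_eq, mk_rep]
  simp only [e]
  exact Equiv.sum_comp (MulAction.toPerm h : Equiv.Perm (G ⧸ Γ)) (fun x => F (rep Γ x))

lemma sumX_add (F F' : G → B) : sumX Γ (F + F') = sumX Γ F + sumX Γ F' := by
  unfold sumX
  simp only [Pi.add_apply, Finset.sum_add_distrib]

lemma sumX_congr {F F' : G → B} (h : ∀ g, F g = F' g) : sumX Γ F = sumX Γ F' := by
  unfold sumX
  exact Finset.sum_congr rfl (fun x _ => h _)

lemma sumX_zero : sumX Γ (fun _ => (0 : B)) = 0 := by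
  unfold sumX; simp

omit [AddCommMonoid B] in
lemma sumX_sub {B : Type*} [AddCommGroup B] (F F' : G → B) :
    sumX Γ (fun g => F g - F' g) = sumX Γ F - sumX Γ F' := by
  unfold sumX
  simp only [Finset.sum_sub_distrib]

omit [AddCommMonoid B] in
lemma sumX_add' {B : Type*} [AddCommMonoid B] (F F' : G → B) :
    sumX Γ (fun g => F g + F' g) = sumX Γ F + sumX Γ F' := by
  unfold sumX
  simp only [Finset.sum_add_distrib]

omit [AddCommMonoid B] in
lemma sumX_neg {B : Type*} [AddCommGroup B] (F : G → B) :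
    sumX Γ (fun g => - F g) = - sumX Γ F := by
  unfold sumX
  simp only [Finset.sum_neg_distrib]

omit [AddCommMonoid B] in
lemma sumX_mul_const {B : Type*} [NonUnitalNonAssocSemiring B] (c : B) (F : G → B) :
    sumX Γ (fun g => c * F g) = c * sumX Γ F := by
  unfold sumX
  rw [Finset.mul_sum]

end SumX

end Fermat.Agent.S41lib.PD
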