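/-
S41 (level raising), block PD (the pairing), part 2 (helper6): the integral alternating form.

`Γ ≤ SL(2,ℤ)` of finite index with `-1 ∈ Γ`, `X = SL(2,ℤ)/Γ`.  For a parabolic `φ : Γ → ℤ` choose a
*cusp potential* `H` (`H (g γ) = H g + φ γ`, `H (T g) = H g`) and put `a_H g = H (S g) - H g`
(a function on `X`; `a (S g) = - a g`, `a (R g) = a (T⁻¹ g) - a g`, `a g + a (R g) + a (R² g) = 0`
for `R = T S`).  The form is

  `form φ φ' = ∑_{x ∈ X} a_H (x) · (H' (R² x) - K' (x))`,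

`K'` a *triangle potential* of `φ'` (`K' (R g) = K' g`); it satisfies
`3 · form φ φ' = ∑_x (a (x) a' (T⁻¹ x) - a (T⁻¹ x) a' (x))` (`triple`), is independent of all
choices, bilinear and alternating.
-/
import Mathlib
import Fermat.Prelude.Def_ModularCurve_PeriodMap
import Fermat.Agent.S41lib.PD.Potential

set_option autoImplicit false

namespace Fermat.Agent.S41lib.PD

open Fermat.Agent.ProgramR.ES ModularCurve.Period
open scoped MatrixGroups

/-- `S` -/
abbrev Sm : SL(2, ℤ) := ModularGroup.S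
/-- `T` -/
abbrev Tm : SL(2, ℤ) := ModularGroup.T
/-- `R = T S`, of order `3` in `PSL(2,ℤ)`. -/
def Rm : SL(2, ℤ) := ModularGroup.T * ModularGroup.S

lemma Rm_def : Rm = Tm * Sm := rfl
lemma S_mul_S : Sm * Sm = -1 := by decide
lemma R_cube : Rm * (Rm * Rm) = -1 := by decide
lemma S_R_eq : Sm * Rm = Tm⁻¹ * (Sm * Tm⁻¹) := by decide
lemma T_inv_R : Tm⁻¹ * Rm = Sm := by decide

/-- The cusp subgroup `⟨T⟩`. -/
def cuspP : Subgroup SL(2, ℤ) := Subgroup.zpowers ModularGroup.T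
/-- The triangle subgroup `⟨R⟩`. -/
def triP : Subgroup SL(2, ℤ) := Subgroup.zpowers Rm

lemma T_mem_cuspP : Tm ∈ cuspP := Subgroup.mem_zpowers _
lemma T_inv_mem_cuspP : Tm⁻¹ ∈ cuspP := cuspP.inv_mem T_mem_cuspP
lemma R_mem_triP : Rm ∈ triP := Subgroup.mem_zpowers _

section Edge

variable {A : Type*} [AddCommGroup A] (Γ : Subgroup SL(2, ℤ))

/-- The edge function `a_H g = H (S g) - H g`. -/
def edge (H : SL(2, ℤ) → A) (g : SL(2, ℤ)) : A := H (Sm * g) - H g

variable {Γ} {φ : Additive Γ →+ A} {H : SL(2, ℤ) → A}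

lemma IsPotential.neg_arg {P : Subgroup SL(2, ℤ)} (h : IsPotential P Γ φ H) (hneg : -1 ∈ Γ)
    (hφ : φ (Additive.ofMul (⟨-1, hneg⟩ : Γ)) = 0) (g : SL(2, ℤ)) : H (-g) = H g := by
  have := h.mul_right g ⟨-1, hneg⟩
  rw [hφ, add_zero] at this
  rw [← this]
  congr 1
  simp

lemma edge_rightInv {P : Subgroup SL(2, ℤ)} (h : IsPotential P Γ φ H) : RightInv Γ (edge H) := by
  intro g γ
  unfold edge
  rw [← mul_assoc, h.mul_right, h.mul_right]
  abel

lemma edge_eq_R (h : IsPotential cuspP Γ φ H) (g : SL(2, ℤ)) : edge H g = H (Rm * g) - H g := by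
  unfold edge
  rw [Rm_def, mul_assoc, h.mul_left _ T_mem_cuspP]

lemma edge_S (h : IsPotential cuspP Γ φ H) (hneg : -1 ∈ Γ)
    (hφ : φ (Additive.ofMul (⟨-1, hneg⟩ : Γ)) = 0) (g : SL(2, ℤ)) :
    edge H (Sm * g) = - edge H g := by
  unfold edge
  rw [← mul_assoc, S_mul_S, neg_one_mul, h.neg_arg hneg hφ]
  abel

lemma edge_R (h : IsPotential cuspP Γ φ H) (g : SL(2, ℤ)) :
    edge H (Rm * g) = edge H (Tm⁻¹ * g) - edge H g := by
  unfold edge
  have e1 : H (Sm * (Rm * g)) = H (Sm * (Tm⁻¹ * g)) := by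
    rw [← mul_assoc, S_R_eq, mul_assoc, h.mul_left _ T_inv_mem_cuspP, mul_assoc]
  have e2 : H (Rm * g) = H (Sm * g) := by
    rw [Rm_def, mul_assoc, h.mul_left _ T_mem_cuspP]
  have e3 : H (Tm⁻¹ * g) = H g := h.mul_left _ T_inv_mem_cuspP g
  rw [e1, e2, e3]
  abel

lemma edge_T_inv_R (h : IsPotential cuspP Γ φ H) (hneg : -1 ∈ Γ)
    (hφ : φ (Additive.ofMul (⟨-1, hneg⟩ : Γ)) = 0) (g : SL(2, ℤ)) :
    edge H (Tm⁻¹ * (Rm * g)) = - edge H g := by
  rw [← mul_assoc, T_inv_R, edge_S h hneg hφ]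

lemma edge_RR (h : IsPotential cuspP Γ φ H) (hneg : -1 ∈ Γ)
    (hφ : φ (Additive.ofMul (⟨-1, hneg⟩ : Γ)) = 0) (g : SL(2, ℤ)) :
    edge H (Rm * (Rm * g)) = - edge H g - edge H (Rm * g) := by
  rw [edge_R h (Rm * g), edge_T_inv_R h hneg hφ]

/-- Kirchhoff's law. -/
lemma edge_kirchhoff (h : IsPotential cuspP Γ φ H) (hneg : -1 ∈ Γ)
    (hφ : φ (Additive.ofMul (⟨-1, hneg⟩ : Γ)) = 0) (g : SL(2, ℤ)) :
    edge H g + edge H (Rm * g) + edge H (Rm * (Rm * g)) = 0 := by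
  rw [edge_RR h hneg hφ]; abel

lemma edge_add (H H' : SL(2, ℤ) → A) (g : SL(2, ℤ)) : edge (H + H') g = edge H g + edge H' g := by
  unfold edge; simp only [Pi.add_apply]; abel

lemma edge_neg (H : SL(2, ℤ) → A) (g : SL(2, ℤ)) : edge (-H) g = - edge H g := by
  unfold edge; simp only [Pi.neg_apply]; abel

lemma edge_zsmul (n : ℤ) (H : SL(2, ℤ) → A) (g : SL(2, ℤ)) : edge (n • H) g = n • edge H g := by
  unfold edge; simp only [Pi.smul_apply, smul_sub]

end Edge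

section Triple

variable (Γ : Subgroup SL(2, ℤ)) [Fintype (SL(2, ℤ) ⧸ Γ)]

/-- The local `2 × 2` minor (fan form). -/
def minorT (H H' : SL(2, ℤ) → ℤ) (g : SL(2, ℤ)) : ℤ :=
  edge H g * edge H' (Tm⁻¹ * g) - edge H (Tm⁻¹ * g) * edge H' g

/-- `∑_x (a (x) a' (T⁻¹ x) - a (T⁻¹ x) a' (x))`; three times the form. -/
noncomputable def triple (H H' : SL(2, ℤ) → ℤ) : ℤ := sumX Γ (minorT H H')

/-- The summand of the form. -/
def formFn (H H' K' : SL(2, ℤ) → ℤ) (g : SL(2, ℤ)) : ℤ :=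
  edge H g * (H' (Rm * (Rm * g)) - K' g)

/-- The form computed from potentials. -/
noncomputable def formPot (H H' K' : SL(2, ℤ) → ℤ) : ℤ := sumX Γ (formFn H H' K')

variable {Γ}
variable {φ φ' : Additive Γ →+ ℤ} {H H' K' : SL(2, ℤ) → ℤ}

lemma minorT_rightInv (h : IsPotential cuspP Γ φ H) (h' : IsPotential cuspP Γ φ' H') :
    RightInv Γ (minorT H H') := by
  intro g γ
  unfold minorT
  have e1 := edge_rightInv h g γ
  have e2 := edge_rightInv h' g γ
  have e3 := edge_rightInv h (Tm⁻¹ * g) γ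
  have e4 := edge_rightInv h' (Tm⁻¹ * g) γ
  rw [mul_assoc] at e3 e4
  rw [e1, e2, e3, e4]

lemma minorT_eq_R (h : IsPotential cuspP Γ φ H) (h' : IsPotential cuspP Γ φ' H') (g : SL(2, ℤ)) :
    minorT H H' g = edge H g * edge H' (Rm * g) - edge H (Rm * g) * edge H' g := by
  unfold minorT
  rw [edge_R h, edge_R h']
  ring

lemma formFn_rightInv (h : IsPotential cuspP Γ φ H) (h' : IsPotential cuspP Γ φ' H')
    (k' : IsPotential triP Γ φ' K') : RightInv Γ (formFn H H' K') := by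
  intro g γ
  unfold formFn
  have e1 := edge_rightInv h g γ
  have e2 := h'.mul_right (Rm * (Rm * g)) γ
  have e3 := k'.mul_right g γ
  rw [mul_assoc, mul_assoc] at e2
  rw [e1, e2, e3]
  ring

/-- `3 · form = triple`. -/
theorem three_mul_formPot (hneg : -1 ∈ Γ)
    (hφ : φ (Additive.ofMul (⟨-1, hneg⟩ : Γ)) = 0) (hφ' : φ' (Additive.ofMul (⟨-1, hneg⟩ : Γ)) = 0)
    (h : IsPotential cuspP Γ φ H) (h' : IsPotential cuspP Γ φ' H')
    (k' : IsPotential triP Γ φ' K') :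
    3 * formPot Γ H H' K' = triple Γ H H' := by
  have hinv := formFn_rightInv h h' k'
  have s1 := sumX_mul_left hinv Rm
  have s2 := sumX_mul_left hinv (Rm * Rm)
  unfold formPot triple
  have e : 3 * sumX Γ (formFn H H' K') =
      sumX Γ (formFn H H' K') + sumX Γ (fun g => formFn H H' K' (Rm * g)) +
        sumX Γ (fun g => formFn H H' K' (Rm * Rm * g)) := by
    rw [s1, s2]; ring
  rw [e]
  unfold sumX
  rw [← Finset.sum_add_distrib, ← Finset.sum_add_distrib]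
  refine Finset.sum_congr rfl ?_
  intro x _
  set g := rep Γ x
  rw [minorT_eq_R h h']
  unfold formFn
  beta_reduce
  have a2 := edge_RR h hneg hφ g
  have k0 : ∀ g, K' (Rm * g) = K' g := fun g => k'.mul_left _ R_mem_triP g
  have k1 : K' (Rm * g) = K' g := k0 g
  have k2 : K' (Rm * Rm * g) = K' g := by rw [mul_assoc, k0, k0]
  have r3 : H' (Rm * (Rm * (Rm * g))) = H' g := by
    rw [← mul_assoc, ← mul_assoc, mul_assoc Rm Rm Rm, R_cube, neg_one_mul, h'.neg_arg hneg hφ']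
  have r4 : H' (Rm * (Rm * (Rm * Rm * g))) = H' (Rm * g) := by
    have e1 : Rm * (Rm * (Rm * Rm * g)) = (Rm * (Rm * Rm)) * (Rm * g) := by group
    rw [e1, R_cube, neg_one_mul, h'.neg_arg hneg hφ']
  have a2' : edge H (Rm * Rm * g) = - edge H g - edge H (Rm * g) := by rw [mul_assoc]; exact a2
  rw [k1, k2, r3, r4, a2', edge_eq_R h' (Rm * g), edge_eq_R h' g]
  ring

end Triple

end Fermat.Agent.S41lib.PD
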