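/-
S41 (level raising), block PD (the pairing), part 3 (helper6): independence of the potentials,
definition of the form on `parabolicHoms ℤ Γ ℤ`, bilinearity and alternation.
-/
import Mathlib
import Fermat.Agent.S41lib.PD.Form

set_option autoImplicit false

namespace Fermat.Agent.S41lib.PD

open Fermat.Agent.ProgramR.ES ModularCurve.Period
open scoped MatrixGroups

section Algebra

variable (Γ : Subgroup SL(2, ℤ)) [Fintype (SL(2, ℤ) ⧸ Γ)]

lemma minorT_add_left (H₁ H₂ H' : SL(2, ℤ) → ℤ) (g : SL(2, ℤ)) :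
    minorT (H₁ + H₂) H' g = minorT H₁ H' g + minorT H₂ H' g := by
  unfold minorT; rw [edge_add, edge_add]; ring

lemma minorT_neg_left (H H' : SL(2, ℤ) → ℤ) (g : SL(2, ℤ)) :
    minorT (-H) H' g = - minorT H H' g := by
  unfold minorT; rw [edge_neg, edge_neg]; ring

lemma minorT_zsmul_left (n : ℤ) (H H' : SL(2, ℤ) → ℤ) (g : SL(2, ℤ)) :
    minorT (n • H) H' g = n * minorT H H' g := by
  unfold minorT; rw [edge_zsmul, edge_zsmul]; simp only [smul_eq_mul]; ring

lemma minorT_swap (H H' : SL(2, ℤ) → ℤ) (g : SL(2, ℤ)) : minorT H' H g = - minorT H H' g := by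
  unfold minorT; ring

lemma minorT_self (H : SL(2, ℤ) → ℤ) (g : SL(2, ℤ)) : minorT H H g = 0 := by
  unfold minorT; ring

lemma triple_add_left (H₁ H₂ H' : SL(2, ℤ) → ℤ) :
    triple Γ (H₁ + H₂) H' = triple Γ H₁ H' + triple Γ H₂ H' := by
  unfold triple
  rw [← sumX_add']
  exact sumX_congr (minorT_add_left H₁ H₂ H')

lemma triple_neg_left (H H' : SL(2, ℤ) → ℤ) : triple Γ (-H) H' = - triple Γ H H' := by
  unfold triple
  rw [← sumX_neg]
  exact sumX_congr (minorT_neg_left H H')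

lemma triple_zsmul_left (n : ℤ) (H H' : SL(2, ℤ) → ℤ) :
    triple Γ (n • H) H' = n * triple Γ H H' := by
  unfold triple
  rw [← sumX_mul_const]
  exact sumX_congr (minorT_zsmul_left n H H')

lemma triple_swap (H H' : SL(2, ℤ) → ℤ) : triple Γ H' H = - triple Γ H H' := by
  unfold triple
  rw [← sumX_neg]
  exact sumX_congr (minorT_swap H H')

lemma triple_self (H : SL(2, ℤ) → ℤ) : triple Γ H H = 0 := by
  unfold triple
  rw [← sumX_zero (Γ := Γ)]
  exact sumX_congr (minorT_self H)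

lemma triple_sub_left (H₁ H₂ H' : SL(2, ℤ) → ℤ) :
    triple Γ (H₁ - H₂) H' = triple Γ H₁ H' - triple Γ H₂ H' := by
  rw [sub_eq_add_neg, triple_add_left, triple_neg_left, sub_eq_add_neg]

end Algebra

section Indep

variable {Γ : Subgroup SL(2, ℤ)} [Fintype (SL(2, ℤ) ⧸ Γ)]
variable {φ' : Additive Γ →+ ℤ} {D H' : SL(2, ℤ) → ℤ}

/-- **Independence of the potential (F1)**: a cusp potential of `0` pairs to zero. -/
theorem triple_zero_left (hneg : -1 ∈ Γ) (hφ' : φ' (Additive.ofMul (⟨-1, hneg⟩ : Γ)) = 0)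
    (hD : IsPotential cuspP Γ (0 : Additive Γ →+ ℤ) D) (h' : IsPotential cuspP Γ φ' H') :
    triple Γ D H' = 0 := by
  -- basic invariances
  have uR : RightInv Γ D := fun g γ => hD.right_inv_of_zero g γ
  have uT : ∀ g, D (Tm * g) = D g := fun g => hD.mul_left _ T_mem_cuspP g
  have uTi : ∀ g, D (Tm⁻¹ * g) = D g := fun g => hD.mul_left _ T_inv_mem_cuspP g
  have uneg : ∀ g, D (-g) = D g := fun g => hD.neg_arg hneg (by simp) g
  have aR : RightInv Γ (edge H') := edge_rightInv h'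
  have aneg : ∀ g, edge H' (-g) = edge H' g := by
    intro g
    have := aR g ⟨-1, hneg⟩
    rw [← this]; congr 1; simp
  -- the four pieces
  set F4 : SL(2, ℤ) → ℤ := fun g => D g * edge H' g with hF4
  have F4R : RightInv Γ F4 := by
    intro g γ
    show D (g * γ) * edge H' (g * γ) = D g * edge H' g
    rw [uR g γ, aR g γ]
  set P : SL(2, ℤ) → ℤ := fun g => D g * edge H' (Tm⁻¹ * (Sm * g)) with hP
  have PR : RightInv Γ P := by
    intro g γ
    show D (g * γ) * edge H' (Tm⁻¹ * (Sm * (g * γ))) = D g * edge H' (Tm⁻¹ * (Sm * g))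
    have := aR (Tm⁻¹ * (Sm * g)) γ
    rw [mul_assoc, mul_assoc] at this
    rw [uR g γ, this]
  set Q : SL(2, ℤ) → ℤ := fun g => D g * edge H' (Rm * g) with hQ
  have QR : RightInv Γ Q := by
    intro g γ
    show D (g * γ) * edge H' (Rm * (g * γ)) = D g * edge H' (Rm * g)
    have := aR (Rm * g) γ
    rw [mul_assoc] at this
    rw [uR g γ, this]
  -- pointwise decomposition of the minor
  have hmin : ∀ g, minorT D H' g =
      (P (Sm * g) - F4 (Tm⁻¹ * g)) - (Q (Sm * (Tm⁻¹ * g)) - F4 g) := by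
    intro g
    unfold minorT edge
    show _ = (D (Sm * g) * edge H' (Tm⁻¹ * (Sm * (Sm * g))) - D (Tm⁻¹ * g) * edge H' (Tm⁻¹ * g)) -
      (D (Sm * (Tm⁻¹ * g)) * edge H' (Rm * (Sm * (Tm⁻¹ * g))) - D g * edge H' g)
    have e1 : edge H' (Tm⁻¹ * (Sm * (Sm * g))) = edge H' (Tm⁻¹ * g) := by
      rw [← mul_assoc Sm Sm g, S_mul_S, neg_one_mul, mul_neg, aneg]
    have e2 : edge H' (Rm * (Sm * (Tm⁻¹ * g))) = edge H' g := by
      have : Rm * (Sm * (Tm⁻¹ * g)) = -g := by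
        rw [Rm_def, mul_assoc, ← mul_assoc Sm Sm, S_mul_S, neg_one_mul, mul_neg,
          mul_inv_cancel_left]
      rw [this, aneg]
    rw [e1, e2, uTi g]
    unfold edge
    ring
  -- sums
  have s1 : sumX Γ (fun g => P (Sm * g)) = sumX Γ P := sumX_mul_left PR Sm
  have s2 : sumX Γ (fun g => F4 (Tm⁻¹ * g)) = sumX Γ F4 := sumX_mul_left F4R Tm⁻¹
  have s3 : sumX Γ (fun g => Q (Sm * (Tm⁻¹ * g))) = sumX Γ Q := by
    have := sumX_mul_left QR (Sm * Tm⁻¹)
    simp only [mul_assoc] at this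
    exact this
  have s4 : sumX Γ (fun g => F4 (Tm * g)) = sumX Γ F4 := sumX_mul_left F4R Tm
  -- `P - Q` in terms of `F4`
  have hPQ : ∀ g, P g - Q g = F4 (Tm * g) - F4 (Tm⁻¹ * g) := by
    intro g
    show D g * edge H' (Tm⁻¹ * (Sm * g)) - D g * edge H' (Rm * g) =
      D (Tm * g) * edge H' (Tm * g) - D (Tm⁻¹ * g) * edge H' (Tm⁻¹ * g)
    have e1 := edge_R h' (Sm * g)
    have e2 : edge H' (Rm * (Sm * g)) = edge H' (Tm * g) := by
      have : Rm * (Sm * g) = -(Tm * g) := by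
        rw [Rm_def, mul_assoc, ← mul_assoc Sm Sm, S_mul_S, neg_one_mul, mul_neg]
      rw [this, aneg]
    have e3 := edge_S h' hneg hφ' g
    have e4 := edge_R h' g
    rw [e2, e3] at e1
    rw [uT, uTi, e4]
    have : edge H' (Tm⁻¹ * (Sm * g)) = edge H' (Tm * g) - edge H' g := by linarith
    rw [this]
    ring
  unfold triple
  have h1 : sumX Γ (minorT D H') =
      (sumX Γ (fun g => P (Sm * g)) - sumX Γ (fun g => F4 (Tm⁻¹ * g))) -
        (sumX Γ (fun g => Q (Sm * (Tm⁻¹ * g))) - sumX Γ F4) := by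
    rw [← sumX_sub, ← sumX_sub, ← sumX_sub]
    exact sumX_congr hmin
  have h2 : sumX Γ P - sumX Γ Q = sumX Γ (fun g => F4 (Tm * g)) - sumX Γ (fun g => F4 (Tm⁻¹ * g)) := by
    rw [← sumX_sub, ← sumX_sub]
    exact sumX_congr hPQ
  rw [h1, s1, s2, s3]
  rw [s4, s2] at h2
  linarith

/-- The triple product does not depend on the cusp potential in the first slot. -/
theorem triple_congr_left (hneg : -1 ∈ Γ) (hφ' : φ' (Additive.ofMul (⟨-1, hneg⟩ : Γ)) = 0)
    {φ : Additive Γ →+ ℤ} {H₁ H₂ : SL(2, ℤ) → ℤ}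
    (h₁ : IsPotential cuspP Γ φ H₁) (h₂ : IsPotential cuspP Γ φ H₂)
    (h' : IsPotential cuspP Γ φ' H') : triple Γ H₁ H' = triple Γ H₂ H' := by
  have hD : IsPotential cuspP Γ (0 : Additive Γ →+ ℤ) (H₁ - H₂) := by
    have := h₁.sub h₂
    rwa [sub_self] at this
  have := triple_zero_left hneg hφ' hD h'
  rw [triple_sub_left] at this
  linarith

/-- The triple product does not depend on the cusp potentials. -/
theorem triple_congr (hneg : -1 ∈ Γ) {φ : Additive Γ →+ ℤ}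
    (hφ : φ (Additive.ofMul (⟨-1, hneg⟩ : Γ)) = 0)
    (hφ' : φ' (Additive.ofMul (⟨-1, hneg⟩ : Γ)) = 0)
    {H₁ H₂ H₁' H₂' : SL(2, ℤ) → ℤ}
    (h₁ : IsPotential cuspP Γ φ H₁) (h₂ : IsPotential cuspP Γ φ H₂)
    (h₁' : IsPotential cuspP Γ φ' H₁') (h₂' : IsPotential cuspP Γ φ' H₂') :
    triple Γ H₁ H₁' = triple Γ H₂ H₂' := by
  rw [triple_congr_left hneg hφ' h₁ h₂ h₁', triple_swap Γ H₁' H₂, triple_swap Γ H₂' H₂,
    triple_congr_left hneg hφ h₁' h₂' h₂]

end Indep

section Exist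

variable (Γ : Subgroup SL(2, ℤ)) {A : Type*} [AddCommGroup A]

lemma trace_sq_of_conj_mem_cuspP (γ g : SL(2, ℤ)) (h : g * γ * g⁻¹ ∈ cuspP) :
    (γ : Matrix (Fin 2) (Fin 2) ℤ).trace ^ 2 = 4 := by
  obtain ⟨n, hn⟩ := Subgroup.mem_zpowers_iff.mp h
  have e : γ = g⁻¹ * (ModularGroup.T ^ n) * g := by
    rw [hn]; group
  have ht : (γ : Matrix (Fin 2) (Fin 2) ℤ).trace
      = ((ModularGroup.T ^ n : SL(2, ℤ)) : Matrix (Fin 2) (Fin 2) ℤ).trace := by
    rw [e, Matrix.SpecialLinearGroup.coe_mul, Matrix.trace_mul_comm,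
      ← Matrix.SpecialLinearGroup.coe_mul, mul_inv_cancel_left]
  rw [ht, ModularGroup.coe_T_zpow]
  simp [Matrix.trace_fin_two]

/-- Parabolic homomorphisms have cusp potentials. -/
theorem exists_cuspPot (φ : Additive Γ →+ A) (hφ : IsParabolicHom Γ φ) :
    ∃ H : SL(2, ℤ) → A, IsPotential cuspP Γ φ H := by
  apply exists_isPotential
  intro γ g hg
  exact hφ γ (trace_sq_of_conj_mem_cuspP (γ : SL(2, ℤ)) g hg)

lemma Rm_pow_six : Rm ^ 6 = 1 := by decide

lemma pow_six_of_conj_mem_triP (γ g : SL(2, ℤ)) (h : g * γ * g⁻¹ ∈ triP) : γ ^ 6 = 1 := by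
  obtain ⟨n, hn⟩ := Subgroup.mem_zpowers_iff.mp h
  have e : γ = g⁻¹ * (Rm ^ n) * g := by
    rw [hn]; group
  have h6 : (Rm ^ n) ^ 6 = 1 := by
    rw [← zpow_natCast, ← zpow_mul, mul_comm, zpow_mul, zpow_natCast, Rm_pow_six, one_zpow]
  calc γ ^ 6 = g⁻¹ * (Rm ^ n) ^ 6 * g := by
        rw [e]
        simp only [pow_succ, pow_zero, one_mul]
        group
    _ = 1 := by rw [h6]; group

/-- Homomorphisms killing the elements of order dividing `6` have triangle potentials. -/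
theorem exists_triPot (φ : Additive Γ →+ A)
    (hφ : ∀ γ : Γ, γ ^ 6 = 1 → φ (Additive.ofMul γ) = 0) :
    ∃ K : SL(2, ℤ) → A, IsPotential triP Γ φ K := by
  apply exists_isPotential
  intro γ g hg
  apply hφ
  apply Subtype.ext
  have := pow_six_of_conj_mem_triP (γ : SL(2, ℤ)) g hg
  simpa using this

/-- Integer valued homomorphisms kill torsion. -/
lemma int_hom_torsion (φ : Additive Γ →+ ℤ) (γ : Γ) (h : γ ^ 6 = 1) :
    φ (Additive.ofMul γ) = 0 := by
  have h1 : φ (Additive.ofMul (γ ^ 6)) = 6 • φ (Additive.ofMul γ) := by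
    rw [ofMul_pow, map_nsmul]
  rw [h, ofMul_one, map_zero] at h1
  have : (6 : ℤ) * φ (Additive.ofMul γ) = 0 := by
    simpa using h1.symm
  rcases mul_eq_zero.mp this with h | h
  · norm_num at h
  · exact h

end Exist

end Fermat.Agent.S41lib.PD
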