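/-
S41 (level raising), block PD (the pairing), part 4 (helper6): the alternating bilinear form
`formBil Γ hneg : LinearMap.BilinForm ℤ ↥(parabolicHoms ℤ Γ ℤ)`.
-/
import Mathlib
import Fermat.Agent.S41lib.PD.FormDef

set_option autoImplicit false

namespace Fermat.Agent.S41lib.PD

open Fermat.Agent.ProgramR.ES ModularCurve.Period
open scoped MatrixGroups

variable (Γ : Subgroup SL(2, ℤ))

/-- The lattice `Hom_par(Γ, ℤ)`. -/
abbrev Lat : Type := ↥(parabolicHoms ℤ Γ ℤ)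

/-- A chosen cusp potential. -/
noncomputable def cuspPot (φ : Lat Γ) : SL(2, ℤ) → ℤ :=
  Classical.choose (exists_cuspPot Γ φ.1 φ.2)

lemma cuspPot_spec (φ : Lat Γ) : IsPotential cuspP Γ φ.1 (cuspPot Γ φ) :=
  Classical.choose_spec (exists_cuspPot Γ φ.1 φ.2)

/-- A chosen triangle potential. -/
noncomputable def triPot (φ : Lat Γ) : SL(2, ℤ) → ℤ :=
  Classical.choose (exists_triPot Γ φ.1 (int_hom_torsion Γ φ.1))

lemma triPot_spec (φ : Lat Γ) : IsPotential triP Γ φ.1 (triPot Γ φ) :=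
  Classical.choose_spec (exists_triPot Γ φ.1 (int_hom_torsion Γ φ.1))

variable {Γ} in
lemma lat_neg_one (hneg : -1 ∈ Γ) (φ : Lat Γ) : φ.1 (Additive.ofMul (⟨-1, hneg⟩ : Γ)) = 0 := by
  apply φ.2
  simp [Matrix.trace_fin_two]

variable [Fintype (SL(2, ℤ) ⧸ Γ)]

/-- **The form** on `Hom_par(Γ, ℤ)`. -/
noncomputable def form (φ φ' : Lat Γ) : ℤ :=
  formPot Γ (cuspPot Γ φ) (cuspPot Γ φ') (triPot Γ φ')

variable {Γ}

/-- `3 · form φ φ'` is the triple product of ANY pair of cusp potentials. -/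
theorem three_mul_form (hneg : -1 ∈ Γ) (φ φ' : Lat Γ) {H H' : SL(2, ℤ) → ℤ}
    (h : IsPotential cuspP Γ φ.1 H) (h' : IsPotential cuspP Γ φ'.1 H') :
    3 * form Γ φ φ' = triple Γ H H' := by
  unfold form
  rw [three_mul_formPot hneg (lat_neg_one hneg φ) (lat_neg_one hneg φ') (cuspPot_spec Γ φ)
    (cuspPot_spec Γ φ') (triPot_spec Γ φ')]
  exact triple_congr hneg (lat_neg_one hneg φ) (lat_neg_one hneg φ') (cuspPot_spec Γ φ) h
    (cuspPot_spec Γ φ') h'

theorem three_mul_form' (hneg : -1 ∈ Γ) (φ φ' : Lat Γ) :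
    3 * form Γ φ φ' = triple Γ (cuspPot Γ φ) (cuspPot Γ φ') :=
  three_mul_form hneg φ φ' (cuspPot_spec Γ φ) (cuspPot_spec Γ φ')

/-- The form can be computed from any potentials. -/
theorem form_eq_formPot (hneg : -1 ∈ Γ) (φ φ' : Lat Γ) {H H' K' : SL(2, ℤ) → ℤ}
    (h : IsPotential cuspP Γ φ.1 H) (h' : IsPotential cuspP Γ φ'.1 H')
    (k' : IsPotential triP Γ φ'.1 K') : form Γ φ φ' = formPot Γ H H' K' := by
  have e1 := three_mul_form hneg φ φ' h h'
  have e2 := three_mul_formPot hneg (lat_neg_one hneg φ) (lat_neg_one hneg φ') h h' k'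
  linarith

theorem form_add_left (hneg : -1 ∈ Γ) (φ₁ φ₂ φ' : Lat Γ) :
    form Γ (φ₁ + φ₂) φ' = form Γ φ₁ φ' + form Γ φ₂ φ' := by
  have h12 : IsPotential cuspP Γ (φ₁ + φ₂ : Lat Γ).1 (cuspPot Γ φ₁ + cuspPot Γ φ₂) :=
    (cuspPot_spec Γ φ₁).add (cuspPot_spec Γ φ₂)
  have e := three_mul_form hneg (φ₁ + φ₂) φ' h12 (cuspPot_spec Γ φ')
  rw [triple_add_left, ← three_mul_form' hneg, ← three_mul_form' hneg] at e
  linarith

theorem form_smul_left (hneg : -1 ∈ Γ) (n : ℤ) (φ φ' : Lat Γ) :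
    form Γ (n • φ) φ' = n * form Γ φ φ' := by
  have h1 : IsPotential cuspP Γ (n • φ : Lat Γ).1 (n • cuspPot Γ φ) :=
    (cuspPot_spec Γ φ).zsmul n
  have e := three_mul_form hneg (n • φ) φ' h1 (cuspPot_spec Γ φ')
  rw [triple_zsmul_left, ← three_mul_form' hneg] at e
  linarith

theorem form_swap (hneg : -1 ∈ Γ) (φ φ' : Lat Γ) : form Γ φ' φ = - form Γ φ φ' := by
  have e1 := three_mul_form' hneg φ' φ
  have e2 := three_mul_form' hneg φ φ'
  rw [triple_swap] at e1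
  linarith

theorem form_self (hneg : -1 ∈ Γ) (φ : Lat Γ) : form Γ φ φ = 0 := by
  have e1 := three_mul_form' hneg φ φ
  rw [triple_self] at e1
  linarith

theorem form_add_right (hneg : -1 ∈ Γ) (φ φ₁' φ₂' : Lat Γ) :
    form Γ φ (φ₁' + φ₂') = form Γ φ φ₁' + form Γ φ φ₂' := by
  rw [← neg_neg (form Γ φ (φ₁' + φ₂')), ← form_swap hneg, form_add_left hneg,
    form_swap hneg φ φ₁', form_swap hneg φ φ₂']
  ring

theorem form_smul_right (hneg : -1 ∈ Γ) (n : ℤ) (φ φ' : Lat Γ) :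
    form Γ φ (n • φ') = n * form Γ φ φ' := by
  rw [← neg_neg (form Γ φ (n • φ')), ← form_swap hneg, form_smul_left hneg, form_swap hneg φ φ']
  ring

variable (Γ) in
/-- **The alternating bilinear form** on `Hom_par(Γ, ℤ)`. -/
noncomputable def formBil (hneg : -1 ∈ Γ) : LinearMap.BilinForm ℤ (Lat Γ) :=
  LinearMap.mk₂ ℤ (form Γ) (form_add_left hneg) (fun n φ φ' => by
    rw [form_smul_left hneg, smul_eq_mul]) (form_add_right hneg) (fun n φ φ' => by
    rw [form_smul_right hneg, smul_eq_mul])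

@[simp] lemma formBil_apply (hneg : -1 ∈ Γ) (φ φ' : Lat Γ) :
    formBil Γ hneg φ φ' = form Γ φ φ' := rfl

theorem formBil_isAlt (hneg : -1 ∈ Γ) : (formBil Γ hneg).IsAlt := fun φ => form_self hneg φ

theorem formBil_isRefl (hneg : -1 ∈ Γ) : (formBil Γ hneg).IsRefl := (formBil_isAlt hneg).isRefl

end Fermat.Agent.S41lib.PD
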