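/-
S41 (level raising), block PD (the pairing), part PD2 (helper1): restriction and transfer.

For `Γ' ≤ Γ ≤ SL(2,ℤ)` of finite index, both containing `-1`:

* `resLat hle : Lat Γ →ₗ[ℤ] Lat Γ'` (restriction of parabolic homomorphisms);
* **degree formula** `form Γ' (res φ) (res φ') = [Γ : Γ'] * form Γ φ φ'`;
* **adjointness** `form Γ' (res φ) ψ = form Γ φ (cores ψ)` for the transfer `cores ψ` computed from
  ANY coset datum `D : HC.CosetData Γ Γ' ι` with representatives `r x ∈ Γ`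
  (`Γ = ⊔_x Γ' r_x`, `r_x γ = c γ x · r_{σ γ x}`).
-/
import Mathlib
import Fermat.Agent.S41lib.PD.Pairing
import Fermat.Agent.S41lib.HC.CosetData

set_option autoImplicit false

namespace Fermat.Agent.S41lib.PD

open Fermat.Agent.ProgramR.ES ModularCurve.Period
open scoped MatrixGroups

/-! ### Summation over `G ⧸ Γ'` versus `G ⧸ Γ` -/

section SumLe

variable {G : Type*} [Group G] {Γ Γ' : Subgroup G} {B : Type*} [AddCommMonoid B]

/-- For a right `Γ`-invariant function the sum over `G ⧸ Γ'` is `[Γ : Γ']` times the sum over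
`G ⧸ Γ`. -/
theorem sumX_of_le (hle : Γ' ≤ Γ) [Fintype (G ⧸ Γ)] [Fintype (G ⧸ Γ')] {F : G → B}
    (hF : RightInv Γ F) : sumX Γ' F = (Γ'.relIndex Γ) • sumX Γ F := by
  classical
  unfold sumX
  set e := Subgroup.quotientEquivProdOfLE hle with he
  have hfin : Finite ((G ⧸ Γ) × (↥Γ ⧸ Γ'.subgroupOf Γ)) := Finite.of_equiv _ e
  have hfin2 : Finite (↥Γ ⧸ Γ'.subgroupOf Γ) := Finite.prod_right (G ⧸ Γ)
  let _ : Fintype (↥Γ ⧸ Γ'.subgroupOf Γ) := Fintype.ofFinite _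
  have key : ∀ x : G ⧸ Γ', F (rep Γ' x) = F (rep Γ (e x).1) := by
    intro x
    have h1 : (e x).1 = (QuotientGroup.mk (rep Γ' x) : G ⧸ Γ) := by
      conv_lhs => rw [← mk_rep Γ' x]
      rfl
    rw [h1, hF.apply_rep]
  simp_rw [key]
  rw [Equiv.sum_comp e (fun p => F (rep Γ p.1)), Fintype.sum_prod_type, Finset.sum_comm]
  simp only [Finset.sum_const, Finset.card_univ]
  congr 1
  rw [Subgroup.relIndex, Subgroup.index, Nat.card_eq_fintype_card]

end SumLe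

/-! ### Transversals -/

section Transversal

variable {G : Type*} [Group G]

/-- `r : ι → G` is a system of representatives of `Γ' \ Γ`: `Γ = ⊔_x Γ' r_x`. -/
structure IsTransversal (Γ Γ' : Subgroup G) {ι : Type*} (r : ι → G) : Prop where
  mem : ∀ x, r x ∈ Γ
  inj : ∀ x y, r x * (r y)⁻¹ ∈ Γ' → x = y
  surj : ∀ g ∈ Γ, ∃ x, r x * g ∈ Γ'

/-- `{rep Γ y * (r x)⁻¹}` is a system of representatives of `G ⧸ Γ'`. -/
theorem IsTransversal.bijective {Γ Γ' : Subgroup G} (hle : Γ' ≤ Γ) {ι : Type*} {r : ι → G}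
    (hr : IsTransversal Γ Γ' r) :
    Function.Bijective
      (fun p : (G ⧸ Γ) × ι => (QuotientGroup.mk (rep Γ p.1 * (r p.2)⁻¹) : G ⧸ Γ')) := by
  constructor
  · rintro ⟨y, x⟩ ⟨y', x'⟩ h
    have h1 : (rep Γ y * (r x)⁻¹)⁻¹ * (rep Γ y' * (r x')⁻¹) ∈ Γ' := QuotientGroup.eq.mp h
    have h2 : (rep Γ y)⁻¹ * rep Γ y' ∈ Γ := by
      have h3 := Γ.mul_mem (Γ.mul_mem (Γ.inv_mem (hr.mem x)) (hle h1)) (hr.mem x')
      have e : (r x)⁻¹ * ((rep Γ y * (r x)⁻¹)⁻¹ * (rep Γ y' * (r x')⁻¹)) * r x' =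
          (rep Γ y)⁻¹ * rep Γ y' := by group
      rwa [e] at h3
    have hy : y = y' := by
      have := QuotientGroup.eq.mpr h2
      rwa [mk_rep, mk_rep] at this
    subst hy
    have h4 : r x * (r x')⁻¹ ∈ Γ' := by
      have e : (rep Γ y * (r x)⁻¹)⁻¹ * (rep Γ y * (r x')⁻¹) = r x * (r x')⁻¹ := by group
      rwa [e] at h1
    rw [hr.inj x x' h4]
  · intro z
    obtain ⟨g, rfl⟩ := QuotientGroup.mk_surjective z
    set y : G ⧸ Γ := QuotientGroup.mk g with hy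
    have h1 : (rep Γ y)⁻¹ * g ∈ Γ := by
      apply QuotientGroup.eq.mp
      rw [mk_rep]
    obtain ⟨x, hx⟩ := hr.surj _ h1
    refine ⟨(y, x), ?_⟩
    apply QuotientGroup.eq.mpr
    have e : (rep Γ y * (r x)⁻¹)⁻¹ * g = r x * ((rep Γ y)⁻¹ * g) := by group
    show (rep Γ y * (r x)⁻¹)⁻¹ * g ∈ Γ'
    rw [e]
    exact hx

/-- Summation over `G ⧸ Γ'` through a transversal of `Γ' \ Γ`. -/
theorem sumX_transversal {Γ Γ' : Subgroup G} (hle : Γ' ≤ Γ) {ι : Type*} [Fintype ι] {r : ι → G}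
    (hr : IsTransversal Γ Γ' r) [Fintype (G ⧸ Γ)] [Fintype (G ⧸ Γ')] {B : Type*}
    [AddCommMonoid B] {F : G → B} (hF : RightInv Γ' F) :
    sumX Γ (fun g => ∑ x, F (g * (r x)⁻¹)) = sumX Γ' F := by
  unfold sumX
  rw [← Fintype.sum_prod_type' (f := fun (y : G ⧸ Γ) (x : ι) => F (rep Γ y * (r x)⁻¹))]
  rw [← (hr.bijective hle).sum_comp (fun z => F (rep Γ' z))]
  refine Finset.sum_congr rfl fun p _ => ?_
  rw [hF.apply_rep]

/-- The transfer of a potential: if `K` is a `P`-potential of `ψ : Γ' → A`, then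
`g ↦ ∑ x, K (g r_x⁻¹)` is a `P`-potential of the transfer of `ψ`. -/
theorem IsPotential.cores {Γ Γ' : Subgroup G} {ι : Type*} [Fintype ι]
    (D : HC.CosetData ↥Γ ↥Γ' ι) (r : ι → G)
    (hrel : ∀ (γ : ↥Γ) (x : ι), r x * (γ : G) = ((D.c γ x : ↥Γ') : G) * r (D.σ γ x))
    {P : Subgroup G} {A : Type*} [AddCommGroup A] {ψ : Additive ↥Γ' →+ A} {K : G → A}
    (hK : IsPotential P Γ' ψ K) :
    IsPotential P Γ (D.op A ψ) (fun g => ∑ x, K (g * (r x)⁻¹)) where
  mul_right g γ := by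
    show ∑ x, K (g * (γ : G) * (r x)⁻¹) = ∑ x, K (g * (r x)⁻¹) + D.op A ψ (Additive.ofMul γ)
    rw [HC.CosetData.op_apply, ← Finset.sum_add_distrib, ← Equiv.sum_comp (D.σ γ)]
    refine Finset.sum_congr rfl fun x _ => ?_
    rw [← hK.mul_right]
    congr 1
    have h := hrel γ x
    have e : (γ : G) * (r (D.σ γ x))⁻¹ = (r x)⁻¹ * ((D.c γ x : ↥Γ') : G) := by
      rw [eq_inv_mul_iff_mul_eq, ← mul_assoc, h, mul_inv_cancel_right]
    rw [mul_assoc, e, mul_assoc]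
  mul_left p hp g := by
    show ∑ x, K (p * g * (r x)⁻¹) = ∑ x, K (g * (r x)⁻¹)
    refine Finset.sum_congr rfl fun x _ => ?_
    rw [mul_assoc, hK.mul_left p hp]

end Transversal

/-! ### Restriction on the lattices -/

section Res

variable {Γ Γ' : Subgroup SL(2, ℤ)}

/-- Restriction `Hom_par(Γ, ℤ) → Hom_par(Γ', ℤ)`. -/
def resLat (hle : Γ' ≤ Γ) : Lat Γ →ₗ[ℤ] Lat Γ' where
  toFun φ := ⟨φ.1.comp (Subgroup.inclusion hle).toAdditive,
    fun γ hγ => φ.2 (Subgroup.inclusion hle γ) hγ⟩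
  map_add' φ φ' := by
    apply Subtype.ext
    apply AddMonoidHom.ext
    intro γ
    rfl
  map_smul' n φ := by
    apply Subtype.ext
    apply AddMonoidHom.ext
    intro γ
    rfl

@[simp] theorem resLat_apply (hle : Γ' ≤ Γ) (φ : Lat Γ) (γ : ↥Γ') :
    (resLat hle φ).1 (Additive.ofMul γ) = φ.1 (Additive.ofMul (Subgroup.inclusion hle γ)) := rfl

theorem resLat_coe (hle : Γ' ≤ Γ) (φ : Lat Γ) :
    (resLat hle φ).1 = φ.1.comp (Subgroup.inclusion hle).toAdditive := rfl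

variable [Fintype (SL(2, ℤ) ⧸ Γ)] [Fintype (SL(2, ℤ) ⧸ Γ')]

/-- **Degree formula**: `form_{Γ'} (res φ) (res φ') = [Γ : Γ'] · form_Γ φ φ'`. -/
theorem form_resLat_resLat (hle : Γ' ≤ Γ) (hneg' : -1 ∈ Γ') (φ φ' : Lat Γ) :
    form Γ' (resLat hle φ) (resLat hle φ') = (Γ'.relIndex Γ : ℤ) * form Γ φ φ' := by
  have hneg : -1 ∈ Γ := hle hneg'
  have hH := cuspPot_spec Γ φ
  have hH' := cuspPot_spec Γ φ'
  have e1 := three_mul_form hneg' (resLat hle φ) (resLat hle φ') (hH.restrict hle)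
    (hH'.restrict hle)
  have e2 := three_mul_form hneg φ φ' hH hH'
  have e3 : triple Γ' (cuspPot Γ φ) (cuspPot Γ φ') =
      (Γ'.relIndex Γ) • triple Γ (cuspPot Γ φ) (cuspPot Γ φ') :=
    sumX_of_le hle (minorT_rightInv hH hH')
  rw [nsmul_eq_mul] at e3
  have e4 : 3 * form Γ' (resLat hle φ) (resLat hle φ') =
      3 * ((Γ'.relIndex Γ : ℤ) * form Γ φ φ') := by
    rw [e1, e3, ← e2]; ring
  linarith

/-- **Adjointness of restriction and transfer**, for an arbitrary coset datum with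
representatives. -/
theorem form_resLat_cores (hle : Γ' ≤ Γ) (hneg' : -1 ∈ Γ') {ι : Type*} [Fintype ι]
    (D : HC.CosetData ↥Γ ↥Γ' ι) (r : ι → SL(2, ℤ)) (hr : IsTransversal Γ Γ' r)
    (hrel : ∀ (γ : ↥Γ) (x : ι),
      r x * (γ : SL(2, ℤ)) = ((D.c γ x : ↥Γ') : SL(2, ℤ)) * r (D.σ γ x))
    (φ : Lat Γ) (ψ : Lat Γ') (χ : Lat Γ) (hχ : χ.1 = D.op ℤ ψ.1) :
    form Γ' (resLat hle φ) ψ = form Γ φ χ := by
  have hneg : -1 ∈ Γ := hle hneg'
  have hH := cuspPot_spec Γ φ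
  have hK := cuspPot_spec Γ' ψ
  set H := cuspPot Γ φ with hHdef
  set K := cuspPot Γ' ψ with hKdef
  have hcor : IsPotential cuspP Γ χ.1 (fun g => ∑ x, K (g * (r x)⁻¹)) := by
    rw [hχ]
    exact IsPotential.cores D r hrel hK
  have e1 := three_mul_form hneg' (resLat hle φ) ψ (hH.restrict hle) hK
  have e2 := three_mul_form hneg φ χ hH hcor
  have hminor : ∀ g, minorT H (fun g => ∑ x, K (g * (r x)⁻¹)) g =
      ∑ x, minorT H K (g * (r x)⁻¹) := by
    intro g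
    have hedge : ∀ g, edge (fun g => ∑ x, K (g * (r x)⁻¹)) g = ∑ x, edge K (g * (r x)⁻¹) := by
      intro g
      unfold edge
      rw [← Finset.sum_sub_distrib]
      refine Finset.sum_congr rfl fun x _ => ?_
      rw [mul_assoc]
    have hinv : ∀ g x, edge H (g * (r x)⁻¹) = edge H g := fun g x =>
      edge_rightInv hH g ⟨(r x)⁻¹, Γ.inv_mem (hr.mem x)⟩
    unfold minorT
    rw [hedge, hedge, Finset.mul_sum, Finset.mul_sum, ← Finset.sum_sub_distrib]
    refine Finset.sum_congr rfl fun x _ => ?_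
    rw [hinv g x, ← mul_assoc, hinv (Tm⁻¹ * g) x]
  have e3 : triple Γ H (fun g => ∑ x, K (g * (r x)⁻¹)) = triple Γ' H K := by
    unfold triple
    rw [sumX_congr hminor]
    exact sumX_transversal hle hr (minorT_rightInv (hH.restrict hle) hK)
  have e4 : 3 * form Γ' (resLat hle φ) ψ = 3 * form Γ φ χ := by
    rw [e1, e2, e3]
  linarith

end Res

end Fermat.Agent.S41lib.PD
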