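/-
S41 (level raising), block PD (the pairing), part PD2 (helper1): restriction and transfer between
`Γ₀(N)` and `Γ₀(N q)`, in the language of the blocks HC / BR:

* `form_resL_coresAL : form Γ₀(N q) (resL a) b = form Γ₀(N) a (coresAL b)`;
* `form_resL_resL : form Γ₀(N q) (resL a) (resL a') = (q + 1) * form Γ₀(N) a a'`.
-/
import Mathlib
import Fermat.Agent.S41lib.PD.ResCores
import Fermat.Agent.S41lib.BR.Lattice

set_option autoImplicit false

namespace Fermat.Agent.S41lib.PD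

open CongruenceSubgroup ModularCurve.Period
open Fermat.Agent.ProgramR.ES Fermat.Agent.S41lib.HC Fermat.Agent.S16lib.LG
open Fermat.Agent.S16lib.LH Fermat.Agent.S29lib.H Fermat.Agent.S31lib.PET
open scoped MatrixGroups

theorem gamma0_neg_one_mem (M : ℕ) : (-1 : SL(2, ℤ)) ∈ Gamma0 M := by
  rw [Gamma0_mem]
  simp

theorem gamma0_mul_le (N q : ℕ) : Gamma0 (N * q) ≤ Gamma0 N := by
  intro γ hγ
  rw [Gamma0_mem] at hγ ⊢
  have h3 := (ZMod.intCast_zmod_eq_zero_iff_dvd (γ 1 0) (N * q)).mp hγ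
  exact (ZMod.intCast_zmod_eq_zero_iff_dvd (γ 1 0) N).mpr
    (dvd_trans (Int.natCast_dvd_natCast.mpr (dvd_mul_right N q)) h3)

variable {N q : ℕ} [NeZero N] [Fact q.Prime] (hqN : ¬ q ∣ N)

/-- `alphaRep` is a system of representatives of `Γ₀(N q) \ Γ₀(N)`. -/
theorem isTransversal_alphaRep :
    IsTransversal (Gamma0 N) (Gamma0 (N * q))
      (fun x : OnePoint (ZMod q) => ((alphaRep hqN x : ↥(Gamma0 N)) : SL(2, ℤ))) where
  mem x := (alphaRep hqN x).2
  inj := by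
    intro x y hxy
    set γ' : ↥(Gamma0 (N * q)) := ⟨_, hxy⟩ with hγ'
    have h1 : PhiA hqN (y, 1) = PhiA hqN (x, γ') := by
      rw [PhiA_apply, PhiA_apply]
      apply Subtype.ext
      simp [hγ']
    have := (PhiA hqN).injective h1
    exact (congrArg Prod.fst this).symm
  surj := by
    intro g0 hg0
    set g : ↥(Gamma0 N) := ⟨g0, hg0⟩ with hg
    refine ⟨((PhiA hqN).symm g).1, ?_⟩
    have h1 : g = (alphaRep hqN ((PhiA hqN).symm g).1)⁻¹ * inclMul N q ((PhiA hqN).symm g).2 :=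
      ((PhiA hqN).apply_symm_apply g).symm
    have h2 : alphaRep hqN ((PhiA hqN).symm g).1 * g = inclMul N q ((PhiA hqN).symm g).2 :=
      eq_inv_mul_iff_mul_eq.mp h1
    have h3 := congrArg (fun u : ↥(Gamma0 N) => (u : SL(2, ℤ))) h2
    simp only [Subgroup.coe_mul, coe_inclMul] at h3
    show ((alphaRep hqN ((PhiA hqN).symm g).1 : ↥(Gamma0 N)) : SL(2, ℤ)) * g0 ∈ Gamma0 (N * q)
    rw [show g0 = ((g : ↥(Gamma0 N)) : SL(2, ℤ)) from rfl, h3]
    exact ((PhiA hqN).symm g).2.2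

theorem coresAData_rel' (γ : ↥(Gamma0 N)) (x : OnePoint (ZMod q)) :
    ((alphaRep hqN x : ↥(Gamma0 N)) : SL(2, ℤ)) * (γ : SL(2, ℤ)) =
      (((coresAData hqN).c γ x : ↥(Gamma0 (N * q))) : SL(2, ℤ)) *
        ((alphaRep hqN ((coresAData hqN).σ γ x) : ↥(Gamma0 N)) : SL(2, ℤ)) := by
  show ((alphaRep hqN x : ↥(Gamma0 N)) : SL(2, ℤ)) * (γ : SL(2, ℤ)) =
    ((alphaCoc hqN γ x : ↥(Gamma0 N)) : SL(2, ℤ)) *
      ((alphaRep hqN (tPerm q γ x) : ↥(Gamma0 N)) : SL(2, ℤ))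
  rw [← Subgroup.coe_mul, ← Subgroup.coe_mul]
  congr 1
  simp only [alphaCoc]
  group

theorem resLat_eq_resL (a : ↥(VZ (Gamma0 N))) :
    resLat (gamma0_mul_le N q) a = BR.resL N q a := by
  apply Subtype.ext
  apply AddMonoidHom.ext
  intro γ
  obtain ⟨γ, rfl⟩ := Additive.ofMul.surjective γ
  rw [BR.resL_coe, res_apply]
  rfl

variable [Fintype (SL(2, ℤ) ⧸ Gamma0 N)] [Fintype (SL(2, ℤ) ⧸ Gamma0 (N * q))]

/-- **Adjointness of `res` and `coresA`** for the forms of levels `N q` and `N`. -/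
theorem form_resL_coresAL (a : ↥(VZ (Gamma0 N))) (b : ↥(VZ (Gamma0 (N * q)))) :
    form (Gamma0 (N * q)) (BR.resL N q a) b = form (Gamma0 N) a (BR.coresAL hqN b) := by
  rw [← resLat_eq_resL]
  exact form_resLat_cores (gamma0_mul_le N q) (gamma0_neg_one_mem _) (coresAData hqN) _
    (isTransversal_alphaRep hqN) (coresAData_rel' hqN) a b (BR.coresAL hqN b) rfl

/-- **Degree formula** for `Γ₀(N q) ≤ Γ₀(N)`, in terms of the index. -/
theorem form_resL_resL_relIndex (a a' : ↥(VZ (Gamma0 N))) :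
    form (Gamma0 (N * q)) (BR.resL N q a) (BR.resL N q a') =
      ((Gamma0 (N * q)).relIndex (Gamma0 N) : ℤ) * form (Gamma0 N) a a' := by
  rw [← resLat_eq_resL, ← resLat_eq_resL]
  exact form_resLat_resLat (gamma0_mul_le N q) (gamma0_neg_one_mem _) a a'

include hqN in
/-- **Degree formula**: `form_{N q} (res a) (res a') = (q + 1) · form_N a a'`. -/
theorem form_resL_resL (a a' : ↥(VZ (Gamma0 N))) :
    form (Gamma0 (N * q)) (BR.resL N q a) (BR.resL N q a') =
      ((q : ℤ) + 1) * form (Gamma0 N) a a' := by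
  rw [form_resL_coresAL hqN, BR.coresAL_resL, form_smul_right (gamma0_neg_one_mem _)]

end Fermat.Agent.S41lib.PD
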