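/-
S41 (level raising), block PD (the pairing), part 5 (helper6): linear algebra over a field for the
unimodularity argument.

`X` a finite set, `V = X → k` with the dot product, `s r t` permutations of `X`.
`invSub π` = invariant functions, `Wsp s r = (invSub s + invSub r)^⊥`.
* `finrank_Wsp_le`: `dim Wsp + cyc s + cyc r ≤ |X| + 1` for a transitive pair.
* `orthogonal_Wsp`: `Wsp^⊥ = invSub s + invSub r`.
* `exists_boundary`: if `w = n∘r² - n∘r` with `n ∈ invSub s + invSub r`, `w∘s = -w`, `r³ = 1`, `t = r s`,
  `2 ≠ 0`, then `w = u∘s - u` for a `t`-invariant `u`.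
-/
import Mathlib
import Fermat.Agent.ProgramR.Counting.Scott

set_option autoImplicit false

namespace Fermat.Agent.S41lib.PD

open Fermat.Agent.ProgramR.Genus Module

section Abstract

variable {X : Type*} [Fintype X] {k : Type*} [Field k]

/-- The dot product on `X → k`. -/
def dotB : LinearMap.BilinForm k (X → k) :=
  LinearMap.mk₂ k (fun f g => ∑ x, f x * g x)
    (fun f f' g => by simp only [Pi.add_apply, add_mul, Finset.sum_add_distrib])
    (fun c f g => by simp only [Pi.smul_apply, smul_eq_mul, mul_assoc, Finset.mul_sum])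
    (fun f g g' => by simp only [Pi.add_apply, mul_add, Finset.sum_add_distrib])
    (fun c f g => by
      simp only [Pi.smul_apply, smul_eq_mul, Finset.mul_sum]
      exact Finset.sum_congr rfl fun x _ => by ring)

lemma dotB_apply (f g : X → k) : dotB f g = ∑ x, f x * g x := rfl

lemma dotB_comm (f g : X → k) : dotB f g = dotB g f := by
  rw [dotB_apply, dotB_apply]
  exact Finset.sum_congr rfl fun x _ => mul_comm _ _

lemma dotB_isRefl : (dotB : LinearMap.BilinForm k (X → k)).IsRefl := by
  intro f g h
  rw [dotB_comm]; exact h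

lemma dotB_nondegenerate [DecidableEq X] : (dotB : LinearMap.BilinForm k (X → k)).Nondegenerate := by
  have key : ∀ f : X → k, (∀ g, dotB f g = 0) → f = 0 := by
    intro f h
    funext x
    have := h (Pi.single x 1)
    rw [dotB_apply] at this
    simpa [Pi.single_apply] using this
  refine ⟨key, ?_⟩
  intro f h
  apply key
  intro g
  rw [dotB_comm]
  exact h g

/-- Reindexing the dot product by a permutation. -/
lemma dotB_comp_perm (π : Equiv.Perm X) (f g : X → k) :
    dotB (fun x => f (π x)) (fun x => g (π x)) = dotB f g := by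
  rw [dotB_apply, dotB_apply]
  exact Equiv.sum_comp π (fun x => f x * g x)

/-- The invariant functions of a permutation. -/
noncomputable def invSub (π : Equiv.Perm X) : Submodule k (X → k) := LinearMap.ker (1 - op k π)

lemma mem_invSub {π : Equiv.Perm X} {f : X → k} : f ∈ invSub π ↔ ∀ x, f (π x) = f x :=
  mem_ker_one_sub_op π f

lemma finrank_invSub (π : Equiv.Perm X) : finrank k ↥(invSub (k := k) π) = cyc π :=
  finrank_ker_one_sub_op k π

/-- `(invSub s + invSub r)^⊥`. -/
noncomputable def Wsp (s r : Equiv.Perm X) : Submodule k (X → k) :=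
  (dotB : LinearMap.BilinForm k (X → k)).orthogonal (invSub s ⊔ invSub r)

lemma mem_Wsp {s r : Equiv.Perm X} {w : X → k} :
    w ∈ Wsp s r ↔ (∀ f ∈ invSub (k := k) s, dotB f w = 0) ∧ (∀ f ∈ invSub (k := k) r, dotB f w = 0) := by
  unfold Wsp
  rw [LinearMap.BilinForm.mem_orthogonal_iff]
  constructor
  · intro h
    exact ⟨fun f hf => h f (Submodule.mem_sup_left hf), fun f hf => h f (Submodule.mem_sup_right hf)⟩
  · rintro ⟨h1, h2⟩ n hn
    obtain ⟨f, hf, g, hg, rfl⟩ := Submodule.mem_sup.mp hn
    show dotB (f + g) w = 0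
    rw [map_add, LinearMap.add_apply, h1 f hf, h2 g hg, add_zero]

/-- Antisymmetric functions are orthogonal to the `s`-invariant ones (`2 ≠ 0`). -/
lemma dotB_eq_zero_of_anti (h2 : (2 : k) ≠ 0) {s : Equiv.Perm X} {f w : X → k}
    (hf : f ∈ invSub s) (hw : ∀ x, w (s x) = - w x) : dotB f w = 0 := by
  have h1 := dotB_comp_perm s f w
  have e : dotB (fun x => f (s x)) (fun x => w (s x)) = - dotB f w := by
    rw [dotB_apply, dotB_apply, ← Finset.sum_neg_distrib]
    refine Finset.sum_congr rfl fun x _ => ?_
    rw [mem_invSub.mp hf x, hw x]; ring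
  rw [e] at h1
  have : (2 : k) * dotB f w = 0 := by linear_combination -h1
  rcases mul_eq_zero.mp this with h | h
  · exact absurd h h2
  · exact h

/-- Coboundaries `m - m ∘ r` are orthogonal to the `r`-invariant functions. -/
lemma dotB_eq_zero_of_cobound {r : Equiv.Perm X} {f m : X → k} (hf : f ∈ invSub r) :
    dotB f (fun x => m x - m (r x)) = 0 := by
  have h1 := dotB_comp_perm r f m
  have e : dotB f (fun x => m x - m (r x)) = dotB f m - dotB (fun x => f (r x)) (fun x => m (r x)) := by
    simp only [dotB_apply, ← Finset.sum_sub_distrib]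
    refine Finset.sum_congr rfl fun x _ => ?_
    rw [mem_invSub.mp hf x]; ring
  rw [e, h1, sub_self]

variable [DecidableEq X]

/-- `Wsp^⊥ = invSub s + invSub r`. -/
lemma orthogonal_Wsp (s r : Equiv.Perm X) :
    (dotB : LinearMap.BilinForm k (X → k)).orthogonal (Wsp s r) = invSub s ⊔ invSub r :=
  LinearMap.BilinForm.orthogonal_orthogonal dotB_nondegenerate dotB_isRefl _

/-- Dimension bound for `Wsp`. -/
lemma finrank_Wsp_le {s r : Equiv.Perm X} (ht : IsTransPair s r) :
    finrank k ↥(Wsp (k := k) s r) + cyc s + cyc r ≤ Fintype.card X + 1 := by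
  have h1 : finrank k ↥(Wsp (k := k) s r) =
      finrank k (X → k) - finrank k ↥(invSub (k := k) s ⊔ invSub r) :=
    LinearMap.BilinForm.finrank_orthogonal dotB_nondegenerate _
  have h2 := Submodule.finrank_sup_add_finrank_inf_eq (invSub (k := k) s) (invSub r)
  have h3 : finrank k ↥(invSub (k := k) s ⊓ invSub r) ≤ 1 := by
    apply finrank_fixed_le_one ht
    intro f hf
    exact ⟨mem_invSub.mp hf.1, mem_invSub.mp hf.2⟩
  have h4 : finrank k ↥(invSub (k := k) s ⊔ invSub r) ≤ finrank k (X → k) :=
    Submodule.finrank_le _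
  rw [finrank_invSub, finrank_invSub] at h2
  rw [Module.finrank_fintype_fun_eq_card] at h1 h4
  omega

omit [DecidableEq X] in
/-- The boundary lemma. -/
lemma exists_boundary (h2 : (2 : k) ≠ 0) {s r t : Equiv.Perm X}
    (hr3 : ∀ x, r (r (r x)) = x) (ht : ∀ x, t x = r (s x))
    {w n : X → k} (hn : n ∈ invSub (k := k) s ⊔ invSub r)
    (hwn : ∀ x, w x = n (r (r x)) - n (r x)) (hws : ∀ x, w (s x) = - w x) :
    ∃ u : X → k, (∀ x, u (t x) = u x) ∧ ∀ x, u (s x) - u x = w x := by
  obtain ⟨f, hf, g, hg, rfl⟩ := Submodule.mem_sup.mp hn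
  have hf' := mem_invSub.mp hf
  have hg' := mem_invSub.mp hg
  -- `w x = f (r² x) - f (r x)`
  have hw : ∀ x, w x = f (r (r x)) - f (r x) := by
    intro x
    rw [hwn x]
    simp only [Pi.add_apply, hg']
    ring
  refine ⟨fun x => (f (r x) - f x - f (r (r x))) / 2, ?_, ?_⟩
  · intro x
    show (f (r (t x)) - f (t x) - f (r (r (t x)))) / 2 = (f (r x) - f x - f (r (r x))) / 2
    rw [ht x, hr3 (s x), hf' x]
    have e1 := hws x
    rw [hw (s x), hw x] at e1
    congr 1
    linear_combination e1
  · intro x
    show (f (r (s x)) - f (s x) - f (r (r (s x)))) / 2 - (f (r x) - f x - f (r (r x))) / 2 = w x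
    have e1 := hws x
    rw [hw (s x)] at e1
    rw [hf' x]
    have e2 := hw x
    field_simp
    linear_combination -e1 - e2

end Abstract

end Fermat.Agent.S41lib.PD
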