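/-
S41 (level raising), block PD (the pairing), part 6 (helper6): the edge model.

* a cusp potential with vanishing edge function is constant and its homomorphism is `0`;
* descent `desc Γ F : G ⧸ Γ → A` of right-invariant functions;
* edge functions of cusp potentials (over a field with `2 ≠ 0`) lie in `Wsp S R`.
-/
import Mathlib
import Fermat.Agent.S41lib.PD.FormDef
import Fermat.Agent.S41lib.PD.ModP

set_option autoImplicit false

namespace Fermat.Agent.S41lib.PD

open Fermat.Agent.ProgramR.ES Fermat.Agent.ProgramR.Genus ModularCurve.Period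
open scoped MatrixGroups

section Const

variable {Γ : Subgroup SL(2, ℤ)} {A : Type*} [AddCommGroup A]
variable {φ : Additive Γ →+ A} {H : SL(2, ℤ) → A}

/-- A cusp potential with zero edge function is left invariant under `SL(2,ℤ)`. -/
lemma left_inv_of_edge_zero (h : IsPotential cuspP Γ φ H) (he : ∀ g, edge H g = 0)
    (x g : SL(2, ℤ)) : H (x * g) = H g := by
  have hx : x ∈ Subgroup.closure ({ModularGroup.S, ModularGroup.T} : Set SL(2, ℤ)) := by
    rw [SpecialLinearGroup.SL2Z_generators]; trivial
  induction hx using Subgroup.closure_induction generalizing g with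
  | mem y hy =>
    rcases hy with rfl | hy
    · have := he g
      unfold edge at this
      exact sub_eq_zero.mp this
    · rw [Set.mem_singleton_iff] at hy
      subst hy
      exact h.mul_left _ T_mem_cuspP g
  | one => rw [one_mul]
  | mul y z _ _ ihy ihz => rw [mul_assoc, ihy, ihz]
  | inv y _ ih =>
    have := ih (y⁻¹ * g)
    rw [mul_inv_cancel_left] at this
    exact this.symm

/-- A cusp potential with zero edge function belongs to the zero homomorphism. -/
lemma eq_zero_of_edge_zero (h : IsPotential cuspP Γ φ H) (he : ∀ g, edge H g = 0) : φ = 0 := by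
  apply AddMonoidHom.ext
  intro a
  obtain ⟨γ, rfl⟩ := Additive.ofMul.surjective a
  have h1 := h.mul_right 1 γ
  rw [one_mul] at h1
  have h2 := left_inv_of_edge_zero h he (γ : SL(2, ℤ)) 1
  rw [mul_one] at h2
  rw [h2] at h1
  simpa using h1.symm

lemma const_of_edge_zero (h : IsPotential cuspP Γ φ H) (he : ∀ g, edge H g = 0)
    (g : SL(2, ℤ)) : H g = H 1 := by
  have := left_inv_of_edge_zero h he g 1
  rwa [mul_one] at this

end Const

section Desc

variable (Γ : Subgroup SL(2, ℤ)) {A : Type*}

/-- Descent of a function on `G` to `G ⧸ Γ` (meaningful for right-invariant functions). -/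
noncomputable def desc (F : SL(2, ℤ) → A) : SL(2, ℤ) ⧸ Γ → A := fun x => F (rep Γ x)

variable {Γ}

lemma desc_mk {F : SL(2, ℤ) → A} (hF : RightInv Γ F) (g : SL(2, ℤ)) :
    desc Γ F (QuotientGroup.mk g) = F g := hF.apply_rep g

lemma desc_smul {F : SL(2, ℤ) → A} (hF : RightInv Γ F) (h : SL(2, ℤ)) (x : SL(2, ℤ) ⧸ Γ) :
    desc Γ F (h • x) = F (h * rep Γ x) := by
  have : h • x = QuotientGroup.mk (h * rep Γ x) := by
    rw [← smul_mk_eq, mk_rep]
  rw [this, desc_mk hF]

lemma eq_of_desc_eq {F F' : SL(2, ℤ) → A} (hF : RightInv Γ F) (hF' : RightInv Γ F')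
    (h : desc Γ F = desc Γ F') (g : SL(2, ℤ)) : F g = F' g := by
  have := congrFun h (QuotientGroup.mk g)
  rwa [desc_mk hF, desc_mk hF'] at this

/-- The function on `G` attached to a function on `G ⧸ Γ`. -/
def pull (v : SL(2, ℤ) ⧸ Γ → A) : SL(2, ℤ) → A := fun g => v (QuotientGroup.mk g)

lemma pull_rightInv (v : SL(2, ℤ) ⧸ Γ → A) : RightInv Γ (pull v) := by
  intro g γ
  unfold pull
  congr 1
  exact QuotientGroup.mk_mul_of_mem g γ.2

lemma desc_pull (v : SL(2, ℤ) ⧸ Γ → A) : desc Γ (pull v) = v := by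
  funext x
  show v (QuotientGroup.mk (rep Γ x)) = v x
  rw [mk_rep]

lemma pull_desc {F : SL(2, ℤ) → A} (hF : RightInv Γ F) : pull (desc Γ F) = F := by
  funext g
  exact desc_mk hF g

end Desc

section PullPot

variable {Γ : Subgroup SL(2, ℤ)} {A : Type*} [AddCommGroup A]

/-- `T`-invariant functions on `G ⧸ Γ` are the cusp potentials of `0`. -/
lemma pull_isPotential {v : SL(2, ℤ) ⧸ Γ → A}
    (hv : ∀ x, v ((ModularGroup.T : SL(2, ℤ)) • x) = v x) :
    IsPotential cuspP Γ (0 : Additive Γ →+ A) (pull v) where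
  mul_right g γ := by
    rw [pull_rightInv v g γ]; simp
  mul_left p hp g := by
    obtain ⟨n, rfl⟩ := Subgroup.mem_zpowers_iff.mp hp
    show v (QuotientGroup.mk (ModularGroup.T ^ n * g)) = v (QuotientGroup.mk g)
    have key : ∀ (n : ℤ) (x : SL(2, ℤ) ⧸ Γ), v ((ModularGroup.T : SL(2, ℤ)) ^ n • x) = v x := by
      intro n
      induction n using Int.induction_on with
      | zero => intro x; simp
      | succ m ih =>
        intro x
        rw [zpow_add_one, mul_smul, ih, hv]
      | pred m ih =>
        intro x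
        rw [zpow_sub_one, mul_smul, ih]
        have := hv ((ModularGroup.T : SL(2, ℤ))⁻¹ • x)
        rw [smul_inv_smul] at this
        exact this.symm
    have := key n (QuotientGroup.mk g)
    rwa [smul_mk_eq] at this

/-- A cusp potential of `0` is the pull-back of a `T`-invariant function. -/
lemma desc_T_inv_of_isPotential_zero {D : SL(2, ℤ) → A}
    (hD : IsPotential cuspP Γ (0 : Additive Γ →+ A) D) (x : SL(2, ℤ) ⧸ Γ) :
    desc Γ D ((ModularGroup.T : SL(2, ℤ)) • x) = desc Γ D x := by
  have hR : RightInv Γ D := fun g γ => hD.right_inv_of_zero g γ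
  rw [desc_smul hR]
  exact hD.mul_left _ T_mem_cuspP _

end PullPot

section InW

variable {Γ : Subgroup SL(2, ℤ)} [Fintype (SL(2, ℤ) ⧸ Γ)] {k : Type*} [Field k]
variable {φ : Additive Γ →+ k} {H K : SL(2, ℤ) → k}

/-- Edge functions lie in `Wsp S R`. -/
theorem desc_edge_mem_Wsp (h2 : (2 : k) ≠ 0) (hneg : -1 ∈ Γ)
    (hφ : φ (Additive.ofMul (⟨-1, hneg⟩ : Γ)) = 0)
    (h : IsPotential cuspP Γ φ H) (hk : IsPotential triP Γ φ K) :
    desc Γ (edge H) ∈ Wsp (k := k) (MulAction.toPerm Sm : Equiv.Perm (SL(2, ℤ) ⧸ Γ))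
      (MulAction.toPerm Rm) := by
  have aR : RightInv Γ (edge H) := edge_rightInv h
  rw [mem_Wsp]
  constructor
  · intro f hf
    apply dotB_eq_zero_of_anti h2 hf
    intro x
    show desc Γ (edge H) (Sm • x) = - desc Γ (edge H) x
    rw [desc_smul aR, edge_S h hneg hφ]
    rfl
  · intro f hf
    set m : SL(2, ℤ) → k := fun g => K g - H g with hm
    have mR : RightInv Γ m := by
      intro g γ
      show K (g * γ) - H (g * γ) = K g - H g
      rw [hk.mul_right, h.mul_right]; ring
    have e : desc Γ (edge H) = fun x => desc Γ m x -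
        desc Γ m ((MulAction.toPerm Rm : Equiv.Perm (SL(2, ℤ) ⧸ Γ)) x) := by
      funext x
      show edge H (rep Γ x) = desc Γ m x - desc Γ m (Rm • x)
      rw [desc_smul mR, edge_eq_R h]
      show H (Rm * rep Γ x) - H (rep Γ x) =
        (K (rep Γ x) - H (rep Γ x)) - (K (Rm * rep Γ x) - H (Rm * rep Γ x))
      rw [hk.mul_left _ R_mem_triP]; ring
    rw [e]
    exact dotB_eq_zero_of_cobound hf

end InW

end Fermat.Agent.S41lib.PD
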