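/-
S41 (level raising), block PD (the pairing), part 7 (helper6): the count.

For `Γ = Γ₀(N)` and `k = 𝔽_p`, `p` odd: every element of `Wsp S R` is the edge function of a cusp
potential of a homomorphism `Γ₀(N) → 𝔽_p` killing the parabolic and the finite order elements.

Proof: the map `(ψ, v) ↦ (edge (H_ψ + v), (H_ψ + v)(1))` from `Hom⁰ × (T-invariant functions)` to
`Wsp × 𝔽_p` is injective, and the source has at least as many elements as the target
(`|Hom⁰| ≥ p^{2g}` by lifting, `dim Wsp ≤ |X| + 1 - cyc S - cyc R`, and the genus formula).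
-/
import Mathlib
import Fermat.Agent.S41lib.PD.EdgeModel
import Fermat.Agent.S16lib.LG.Lift

set_option autoImplicit false
set_option linter.unusedSectionVars false

namespace Fermat.Agent.S41lib.PD

open Fermat.Agent.ProgramR.ES Fermat.Agent.ProgramR.Genus Fermat.Agent.S16lib.LG
  ModularCurve.Period CongruenceSubgroup Module
open scoped MatrixGroups

section Perm

/-- `cyc (a b) = cyc (b a)`. -/
lemma cyc_mul_comm {X : Type*} (a b : Equiv.Perm X) : cyc (a * b) = cyc (b * a) := by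
  unfold cyc
  refine Nat.card_congr (Quotient.congr b ?_)
  intro x y
  have e : b * a = b * (a * b) * b⁻¹ := by group
  show Equiv.Perm.SameCycle (a * b) x y ↔ Equiv.Perm.SameCycle (b * a) (b x) (b y)
  rw [e, Equiv.Perm.sameCycle_conj]
  simp

lemma isTransPair_of_closure_le {X : Type*} {σ τ σ' τ' : Equiv.Perm X}
    (h : IsTransPair σ τ) (hσ : σ ∈ Subgroup.closure ({σ', τ'} : Set (Equiv.Perm X)))
    (hτ : τ ∈ Subgroup.closure ({σ', τ'} : Set (Equiv.Perm X))) : IsTransPair σ' τ' := by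
  intro x y
  obtain ⟨g, hg, hxy⟩ := h x y
  refine ⟨g, ?_, hxy⟩
  have hle : Subgroup.closure ({σ, τ} : Set (Equiv.Perm X)) ≤
      Subgroup.closure ({σ', τ'} : Set (Equiv.Perm X)) := by
    rw [Subgroup.closure_le]
    rintro z (rfl | hz)
    · exact hσ
    · rw [Set.mem_singleton_iff] at hz
      subst hz
      exact hτ
  exact hle hg

end Perm

section Level

variable (N : ℕ) [NeZero N]

/-- The permutation `S` of `G ⧸ Γ₀(N)`. -/
noncomputable abbrev sP : Equiv.Perm (SL(2, ℤ) ⧸ Gamma0 N) := MulAction.toPerm Sm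

/-- The permutation `T` of `G ⧸ Γ₀(N)`. -/
noncomputable abbrev tP : Equiv.Perm (SL(2, ℤ) ⧸ Gamma0 N) := MulAction.toPerm Tm

/-- The permutation `R = T S` of `G ⧸ Γ₀(N)`. -/
noncomputable abbrev rP : Equiv.Perm (SL(2, ℤ) ⧸ Gamma0 N) := MulAction.toPerm Rm

lemma R_mul_S : Rm * Sm = -1 * Tm := by decide

lemma rP_eq : rP N = tauN N * sigmaN N := by
  ext x
  show Rm • x = Tm • (Sm • x)
  rw [← mul_smul]
  rfl

lemma rP_cube (x : SL(2, ℤ) ⧸ Gamma0 N) : rP N (rP N (rP N x)) = x := by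
  show Rm • (Rm • (Rm • x)) = x
  rw [← mul_smul, ← mul_smul, mul_assoc, R_cube]
  exact neg_one_smul_coset N x

lemma tP_eq (x : SL(2, ℤ) ⧸ Gamma0 N) : tP N x = rP N (sP N x) := by
  show Tm • x = Rm • (Sm • x)
  rw [← mul_smul, R_mul_S, mul_smul]
  exact (neg_one_smul_coset N _).symm

lemma isTransPair_sP_rP : IsTransPair (sP N) (rP N) := by
  apply isTransPair_of_closure_le (isTransPair_sigmaN_tauN N)
  · exact Subgroup.subset_closure (Set.mem_insert _ _)
  · have h1 : rP N ∈ Subgroup.closure ({sP N, rP N} : Set (Equiv.Perm (SL(2, ℤ) ⧸ Gamma0 N))) :=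
      Subgroup.subset_closure (Set.mem_insert_of_mem _ rfl)
    have h2 : sP N ∈ Subgroup.closure ({sP N, rP N} : Set (Equiv.Perm (SL(2, ℤ) ⧸ Gamma0 N))) :=
      Subgroup.subset_closure (Set.mem_insert _ _)
    have e : tauN N = rP N * (sP N)⁻¹ := by
      rw [rP_eq]
      show tauN N = tauN N * sigmaN N * (sigmaN N)⁻¹
      group
    rw [e]
    exact Subgroup.mul_mem _ h1 (Subgroup.inv_mem _ h2)

attribute [local instance] cosetFintype

open Classical in
/-- The genus relation for `S`, `T`, `R = T S`. -/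
lemma exists_genus_cyc_R :
    ∃ g : ℕ, cyc (sP N) + cyc (tP N) + cyc (rP N) + 2 * g
        = Fintype.card (SL(2, ℤ) ⧸ Gamma0 N) + 2 ∧
      (g : ℚ) = ModularCurve.genusFormula N := by
  obtain ⟨g, hg, hgq⟩ := exists_genus_cyc N
  refine ⟨g, ?_, hgq⟩
  rw [rP_eq, cyc_mul_comm]
  exact hg

variable (p : ℕ) [Fact p.Prime]

/-- `Hom⁰(Γ₀(N), 𝔽_p)`. -/
abbrev Hom0 : Type := ↥(parHomsM (Gamma0 N) IsParTor (ZMod p))

instance : Finite (Hom0 N p) := by
  have : Finite (Additive (Gamma0 N) →+ ZMod p) := finite_addHom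
  exact Subtype.finite

/-- `|Hom⁰(Γ₀(N), 𝔽_p)| ≥ p^{2g}`. -/
lemma pow_le_card_hom0 (g : ℕ) (hg : (g : ℚ) = ModularCurve.genusFormula N) :
    p ^ (2 * g) ≤ Nat.card (Hom0 N p) := by
  have hp : NeZero p := ⟨(Fact.out : p.Prime).ne_zero⟩
  obtain ⟨hfd, hrank⟩ := finrank_parabolicHoms_complex N g hg
  have hle : 2 * g ≤ Fintype.card (VIdx (Gamma0 N)) := by
    rw [← hrank]
    exact finrank_parabolicHoms_complex_le_card (Gamma0 N)
  have hmem : ∀ v : ↥(VZ (Gamma0 N)),
      toZModn (Gamma0 N) p (v : Additive (Gamma0 N) →+ ℤ) ∈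
        parHomsM (Gamma0 N) IsParTor (ZMod p) := by
    intro v γ hγ
    have hv0 : (v : Additive (Gamma0 N) →+ ℤ) (Additive.ofMul γ) = 0 := by
      rcases hγ with h | h
      · exact v.2 γ h
      · have h' : γ ^ 12 = 1 := by
          apply Subtype.ext
          rw [Subgroup.coe_pow, h]
          rfl
        have h12 : (12 : ℕ) • (v : Additive (Gamma0 N) →+ ℤ) (Additive.ofMul γ) = 0 := by
          rw [← map_nsmul, ← ofMul_pow, h', ofMul_one, map_zero]
        simpa using h12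
    show ((Int.castAddHom (ZMod p)) ((v : Additive (Gamma0 N) →+ ℤ) (Additive.ofMul γ))) = 0
    rw [hv0, map_zero]
  let F : (VIdx (Gamma0 N) → Fin p) → Hom0 N p :=
    fun c => ⟨liftMap (Gamma0 N) p c, hmem _⟩
  have hF : Function.Injective F := by
    intro c c' h
    exact liftMap_injective (Gamma0 N) p (congrArg Subtype.val h)
  have h1 := Nat.card_le_card_of_injective F hF
  rw [Nat.card_fun, Nat.card_fin, Nat.card_eq_fintype_card (α := VIdx (Gamma0 N))] at h1
  exact (Nat.pow_le_pow_right (Nat.pos_of_ne_zero (NeZero.ne p)) hle).trans h1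

variable {N p}

lemma hom0_isParabolic (ψ : Hom0 N p) : IsParabolicHom (Gamma0 N) ψ.1 :=
  fun γ hγ => ψ.2 γ (Or.inl hγ)

lemma hom0_torsion (ψ : Hom0 N p) (γ : Gamma0 N) (h : γ ^ 6 = 1) : ψ.1 (Additive.ofMul γ) = 0 := by
  apply ψ.2 γ
  right
  have h' : γ ^ 12 = 1 := by
    rw [show 12 = 6 * 2 by norm_num, pow_mul, h, one_pow]
  have := congrArg (Subtype.val) h'
  simpa using this

lemma hom0_neg_one (hneg : -1 ∈ Gamma0 N) (ψ : Hom0 N p) :
    ψ.1 (Additive.ofMul (⟨-1, hneg⟩ : Gamma0 N)) = 0 :=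
  ψ.2 _ (Or.inl isPar_neg_one)

/-- A chosen cusp potential. -/
noncomputable def potF (ψ : Hom0 N p) : SL(2, ℤ) → ZMod p :=
  Classical.choose (exists_cuspPot (Gamma0 N) ψ.1 (hom0_isParabolic ψ))

lemma potF_spec (ψ : Hom0 N p) : IsPotential cuspP (Gamma0 N) ψ.1 (potF ψ) :=
  Classical.choose_spec (exists_cuspPot (Gamma0 N) ψ.1 (hom0_isParabolic ψ))

end Level

section Main

variable {N : ℕ} [NeZero N] {p : ℕ} [Fact p.Prime]

attribute [local instance] cosetFintype

lemma potF_add_pull (ψ : Hom0 N p) {v : SL(2, ℤ) ⧸ Gamma0 N → ZMod p}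
    (hv : ∀ x, v (Tm • x) = v x) :
    IsPotential cuspP (Gamma0 N) ψ.1 (potF ψ + pull v) := by
  have := (potF_spec ψ).add (pull_isPotential hv)
  rwa [add_zero] at this

lemma edge_potential_mem_Wsp (h2 : (2 : ZMod p) ≠ 0) (hneg : -1 ∈ Gamma0 N) (ψ : Hom0 N p)
    {H : SL(2, ℤ) → ZMod p} (h : IsPotential cuspP (Gamma0 N) ψ.1 H) :
    desc (Gamma0 N) (edge H) ∈ Wsp (k := ZMod p) (sP N) (rP N) := by
  obtain ⟨K, hK⟩ := exists_triPot (Gamma0 N) ψ.1 (hom0_torsion ψ)
  exact desc_edge_mem_Wsp h2 hneg (hom0_neg_one hneg ψ) h hK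

/-- The counting map. -/
noncomputable def countMap (h2 : (2 : ZMod p) ≠ 0) (hneg : -1 ∈ Gamma0 N) :
    Hom0 N p × ↥(invSub (k := ZMod p) (tP N)) →
      ↥(Wsp (k := ZMod p) (sP N) (rP N)) × ZMod p :=
  fun q => (⟨desc (Gamma0 N) (edge (potF q.1 + pull q.2.1)),
      edge_potential_mem_Wsp h2 hneg q.1 (potF_add_pull q.1 (mem_invSub.mp q.2.2))⟩,
    potF q.1 1 + q.2.1 (QuotientGroup.mk 1))

lemma countMap_injective (h2 : (2 : ZMod p) ≠ 0) (hneg : -1 ∈ Gamma0 N) :
    Function.Injective (countMap (N := N) (p := p) h2 hneg) := by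
  rintro ⟨ψ, v⟩ ⟨ψ', v'⟩ heq
  have hH := potF_add_pull ψ (mem_invSub.mp v.2)
  have hH' := potF_add_pull ψ' (mem_invSub.mp v'.2)
  set H := potF ψ + pull v.1 with hHdef
  set H' := potF ψ' + pull v'.1 with hH'def
  have e1 : desc (Gamma0 N) (edge H) = desc (Gamma0 N) (edge H') :=
    congrArg (fun q => (q.1 : SL(2, ℤ) ⧸ Gamma0 N → ZMod p)) heq
  have e2 : H 1 = H' 1 := congrArg (fun q => q.2) heq
  have hD := hH.sub hH'
  have hedge : ∀ g, edge (H - H') g = 0 := by
    intro g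
    have := eq_of_desc_eq (edge_rightInv hH) (edge_rightInv hH') e1 g
    show (H - H') (Sm * g) - (H - H') g = 0
    unfold edge at this
    simp only [Pi.sub_apply]
    linear_combination this
  have hψ : ψ.1 - ψ'.1 = 0 := eq_zero_of_edge_zero hD hedge
  have hψ' : ψ = ψ' := Subtype.ext (sub_eq_zero.mp hψ)
  subst hψ'
  have hconst : ∀ g, H g = H' g := by
    intro g
    have := const_of_edge_zero hD hedge g
    simp only [Pi.sub_apply] at this
    rw [e2, sub_self] at this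
    exact sub_eq_zero.mp this
  have hv : v = v' := by
    apply Subtype.ext
    funext x
    induction x using QuotientGroup.induction_on with
    | H g =>
      have := hconst g
      simp only [hHdef, hH'def, Pi.add_apply, pull] at this
      exact add_left_cancel this
  rw [hv]

open Classical in
/-- **The count**: every element of `Wsp S R` is an edge function. -/
theorem exists_potential_of_mem_Wsp (h2 : (2 : ZMod p) ≠ 0) (hneg : -1 ∈ Gamma0 N)
    (w : SL(2, ℤ) ⧸ Gamma0 N → ZMod p) (hw : w ∈ Wsp (k := ZMod p) (sP N) (rP N)) :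
    ∃ (ψ : Hom0 N p) (H : SL(2, ℤ) → ZMod p),
      IsPotential cuspP (Gamma0 N) ψ.1 H ∧ desc (Gamma0 N) (edge H) = w := by
  obtain ⟨g, hg, hgq⟩ := exists_genus_cyc_R N
  have hW := finrank_Wsp_le (k := ZMod p) (isTransPair_sP_rP N)
  have hHom := pow_le_card_hom0 N p g hgq
  have hp : 0 < p := (Fact.out : p.Prime).pos
  have c1 : Nat.card ↥(invSub (k := ZMod p) (tP N)) = p ^ cyc (tP N) := by
    rw [Module.natCard_eq_pow_finrank (K := ZMod p), Nat.card_zmod, finrank_invSub]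
  have c2 : Nat.card ↥(Wsp (k := ZMod p) (sP N) (rP N)) =
      p ^ finrank (ZMod p) ↥(Wsp (k := ZMod p) (sP N) (rP N)) := by
    rw [Module.natCard_eq_pow_finrank (K := ZMod p), Nat.card_zmod]
  have hcard : Nat.card (↥(Wsp (k := ZMod p) (sP N) (rP N)) × ZMod p) ≤
      Nat.card (Hom0 N p × ↥(invSub (k := ZMod p) (tP N))) := by
    rw [Nat.card_prod, Nat.card_prod, c1, c2, Nat.card_zmod, ← pow_succ]
    calc p ^ (finrank (ZMod p) ↥(Wsp (k := ZMod p) (sP N) (rP N)) + 1)
        ≤ p ^ (2 * g + cyc (tP N)) := Nat.pow_le_pow_right hp (by omega)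
      _ = p ^ (2 * g) * p ^ cyc (tP N) := pow_add _ _ _
      _ ≤ Nat.card (Hom0 N p) * p ^ cyc (tP N) := Nat.mul_le_mul_right _ hHom
  have hbij := (countMap_injective (N := N) (p := p) h2 hneg).bijective_of_nat_card_le hcard
  obtain ⟨⟨ψ, v⟩, hq⟩ := hbij.2 (⟨w, hw⟩, 0)
  refine ⟨ψ, potF ψ + pull v.1, potF_add_pull ψ (mem_invSub.mp v.2), ?_⟩
  exact congrArg (fun q => (q.1 : SL(2, ℤ) ⧸ Gamma0 N → ZMod p)) hq

end Main

end Fermat.Agent.S41lib.PD
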