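/-
S41 (level raising), block PD (the pairing), part 8 (helper6): unimodularity.

`form_unimodular`: for `Γ = Γ₀(N)` and an odd prime `p`: if `p ∣ form b' y` for all `b'`, then
`y ∈ p · Lat`.  Consequences: the form is nondegenerate.
-/
import Mathlib
import Fermat.Agent.S41lib.PD.Count
import Fermat.Agent.S41lib.PD.Pairing

set_option autoImplicit false
set_option linter.unusedSectionVars false

namespace Fermat.Agent.S41lib.PD

open Fermat.Agent.ProgramR.ES Fermat.Agent.ProgramR.Genus Fermat.Agent.S16lib.LG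
  ModularCurve.Period CongruenceSubgroup Module
open scoped MatrixGroups

section Unimodular

variable {N : ℕ} [NeZero N] {p : ℕ} [Fact p.Prime]

attribute [local instance] cosetFintype

/-- Reduction modulo `p` of an integer valued function. -/
def redP (p : ℕ) (H : SL(2, ℤ) → ℤ) : SL(2, ℤ) → ZMod p := fun g => ((H g : ℤ) : ZMod p)

lemma edge_redP (H : SL(2, ℤ) → ℤ) (g : SL(2, ℤ)) :
    edge (redP p H) g = ((edge H g : ℤ) : ZMod p) := by
  unfold edge redP
  push_cast
  rfl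

lemma redP_isPotential {P : Subgroup SL(2, ℤ)} {φ : Additive (Gamma0 N) →+ ℤ}
    {H : SL(2, ℤ) → ℤ} (h : IsPotential P (Gamma0 N) φ H) :
    IsPotential P (Gamma0 N) (toZModn (Gamma0 N) p φ) (redP p H) :=
  h.map (Int.castAddHom (ZMod p))

/-- Lifting a potential modulo `p` to an integral potential. -/
lemma exists_lift_potential (ψ : Hom0 N p) {Hbar : SL(2, ℤ) → ZMod p}
    (hbar : IsPotential cuspP (Gamma0 N) ψ.1 Hbar) :
    ∃ (b' : Lat (Gamma0 N)) (H : SL(2, ℤ) → ℤ),
      IsPotential cuspP (Gamma0 N) b'.1 H ∧ redP p H = Hbar := by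
  have hp : NeZero p := ⟨(Fact.out : p.Prime).ne_zero⟩
  obtain ⟨φ, hφ, hcast⟩ := exists_parabolic_lift N p ψ.1 ψ.2
  set b' : Lat (Gamma0 N) := ⟨φ, hφ⟩ with hb'
  have h₀ := cuspPot_spec (Gamma0 N) b'
  have h₀c : IsPotential cuspP (Gamma0 N) (toZModn (Gamma0 N) p φ)
      (redP p (cuspPot (Gamma0 N) b')) := redP_isPotential h₀
  have hcomp : toZModn (Gamma0 N) p φ = ψ.1 := by
    apply AddMonoidHom.ext
    intro a
    obtain ⟨γ, rfl⟩ := Additive.ofMul.surjective a
    exact hcast γ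
  rw [hcomp] at h₀c
  -- the difference is a cusp potential of `0`
  have hD := hbar.sub h₀c
  rw [sub_self] at hD
  set D := Hbar - redP p (cuspPot (Gamma0 N) b') with hDdef
  have hDR : RightInv (Gamma0 N) D := fun g γ => hD.right_inv_of_zero g γ
  set vbar := desc (Gamma0 N) D with hvbar
  have hvT : ∀ x, vbar (Tm • x) = vbar x := desc_T_inv_of_isPotential_zero hD
  let vt : SL(2, ℤ) ⧸ Gamma0 N → ℤ := fun x => ((vbar x).val : ℤ)
  have hvtT : ∀ x, vt (Tm • x) = vt x := by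
    intro x
    show ((vbar (Tm • x)).val : ℤ) = ((vbar x).val : ℤ)
    rw [hvT]
  have hH : IsPotential cuspP (Gamma0 N) b'.1 (cuspPot (Gamma0 N) b' + pull vt) := by
    have := h₀.add (pull_isPotential hvtT)
    rwa [add_zero] at this
  refine ⟨b', _, hH, ?_⟩
  funext g
  show (((cuspPot (Gamma0 N) b' g + vt (QuotientGroup.mk g) : ℤ)) : ZMod p) = Hbar g
  have e1 : ((vt (QuotientGroup.mk g) : ℤ) : ZMod p) = D g := by
    show ((((vbar (QuotientGroup.mk g)).val : ℕ) : ℤ) : ZMod p) = D g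
    rw [Int.cast_natCast, ZMod.natCast_zmod_val, hvbar, desc_mk hDR]
  rw [Int.cast_add, e1, hDdef]
  show ((cuspPot (Gamma0 N) b' g : ℤ) : ZMod p) + (Hbar g - redP p (cuspPot (Gamma0 N) b') g) = Hbar g
  unfold redP
  ring

/-- The form modulo `p` as a dot product on `G ⧸ Γ`. -/
lemma form_cast_eq_dotB (hneg : -1 ∈ Gamma0 N) (b' y : Lat (Gamma0 N))
    {H Hy Ky : SL(2, ℤ) → ℤ}
    (h : IsPotential cuspP (Gamma0 N) b'.1 H) (hy : IsPotential cuspP (Gamma0 N) y.1 Hy)
    (ky : IsPotential triP (Gamma0 N) y.1 Ky) :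
    ((form (Gamma0 N) b' y : ℤ) : ZMod p) =
      dotB (desc (Gamma0 N) (edge (redP p H)))
        (desc (Gamma0 N) (redP p (fun g => Hy (Rm * (Rm * g)) - Ky g))) := by
  rw [form_eq_formPot hneg b' y h hy ky, dotB_apply]
  unfold formPot sumX formFn desc
  rw [Int.cast_sum]
  refine Finset.sum_congr rfl fun x _ => ?_
  rw [edge_redP]
  unfold redP
  push_cast
  rfl

/-- **Unimodularity** of the form on `Hom_par(Γ₀(N), ℤ)` at every odd prime. -/
theorem form_unimodular_aux (hp2 : p ≠ 2) (hneg : -1 ∈ Gamma0 N) (y : Lat (Gamma0 N))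
    (hdiv : ∀ b' : Lat (Gamma0 N), (p : ℤ) ∣ form (Gamma0 N) b' y)
    {Hy Ky : SL(2, ℤ) → ℤ} (hy : IsPotential cuspP (Gamma0 N) y.1 Hy)
    (ky : IsPotential triP (Gamma0 N) y.1 Ky) :
    ∃ y' : Lat (Gamma0 N), y = (p : ℤ) • y' := by
  classical
  have hp : NeZero p := ⟨(Fact.out : p.Prime).ne_zero⟩
  have h2 : (2 : ZMod p) ≠ 0 := by
    intro h
    have h' : ((2 : ℕ) : ZMod p) = 0 := by exact_mod_cast h
    rw [ZMod.natCast_eq_zero_iff] at h'
    have := (Nat.prime_dvd_prime_iff_eq (Fact.out : p.Prime) Nat.prime_two).mp h'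
    exact hp2 this
  have hyneg := lat_neg_one hneg y
  set nZ : SL(2, ℤ) → ℤ := fun g => Hy (Rm * (Rm * g)) - Ky g with hnZ
  have nZR : RightInv (Gamma0 N) nZ := by
    intro g γ
    show Hy (Rm * (Rm * (g * γ))) - Ky (g * γ) = Hy (Rm * (Rm * g)) - Ky g
    have e1 := hy.mul_right (Rm * (Rm * g)) γ
    rw [mul_assoc, mul_assoc] at e1
    rw [e1, ky.mul_right]
    ring
  have nbR : RightInv (Gamma0 N) (redP p nZ) := by
    intro g γ
    show ((nZ (g * γ) : ℤ) : ZMod p) = ((nZ g : ℤ) : ZMod p)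
    rw [nZR]
  set nbar := desc (Gamma0 N) (redP p nZ) with hnbar
  -- `nbar` is orthogonal to `Wsp`
  have hortho : nbar ∈ (dotB : LinearMap.BilinForm (ZMod p) _).orthogonal
      (Wsp (k := ZMod p) (sP N) (rP N)) := by
    rw [LinearMap.BilinForm.mem_orthogonal_iff]
    intro w hw
    obtain ⟨ψ, Hbar, hbar, hwe⟩ := exists_potential_of_mem_Wsp h2 hneg w hw
    obtain ⟨b', H, hH, hred⟩ := exists_lift_potential ψ hbar
    have e := form_cast_eq_dotB (p := p) hneg b' y hH hy ky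
    rw [hred, hwe] at e
    show dotB w nbar = 0
    rw [← e]
    exact (ZMod.intCast_zmod_eq_zero_iff_dvd _ _).mpr (hdiv b')
  rw [orthogonal_Wsp] at hortho
  -- the edge function of `Hy` modulo `p`
  set abar := desc (Gamma0 N) (edge (redP p Hy)) with habar
  have hyc := redP_isPotential (p := p) hy
  have aR : RightInv (Gamma0 N) (edge (redP p Hy)) := edge_rightInv hyc
  have hyneg' : (toZModn (Gamma0 N) p y.1) (Additive.ofMul (⟨-1, hneg⟩ : Gamma0 N)) = 0 := by
    show ((y.1 (Additive.ofMul (⟨-1, hneg⟩ : Gamma0 N)) : ℤ) : ZMod p) = 0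
    rw [hyneg, Int.cast_zero]
  -- the integral identity `edge Hy g = nZ (R R g) - nZ (R g)`
  have hid : ∀ g, edge Hy g = nZ (Rm * (Rm * g)) - nZ (Rm * g) := by
    intro g
    have k0 : ∀ g, Ky (Rm * g) = Ky g := fun g => ky.mul_left _ R_mem_triP g
    have r1 : Hy (Rm * (Rm * (Rm * (Rm * g)))) = Hy (Rm * g) := by
      have e1 : Rm * (Rm * (Rm * (Rm * g))) = (Rm * (Rm * Rm)) * (Rm * g) := by group
      rw [e1, R_cube, neg_one_mul, hy.neg_arg hneg hyneg]
    have r2 : Hy (Rm * (Rm * (Rm * g))) = Hy g := by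
      have e1 : Rm * (Rm * (Rm * g)) = (Rm * (Rm * Rm)) * g := by group
      rw [e1, R_cube, neg_one_mul, hy.neg_arg hneg hyneg]
    show edge Hy g = (Hy (Rm * (Rm * (Rm * (Rm * g)))) - Ky (Rm * (Rm * g))) -
      (Hy (Rm * (Rm * (Rm * g))) - Ky (Rm * g))
    rw [r1, r2, k0, k0, edge_eq_R hy]
    ring
  have hwn : ∀ x, abar x = nbar (rP N (rP N x)) - nbar (rP N x) := by
    intro x
    show edge (redP p Hy) (rep (Gamma0 N) x) = nbar (Rm • (Rm • x)) - nbar (Rm • x)
    rw [← mul_smul, hnbar, desc_smul nbR, desc_smul nbR, edge_redP, hid]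
    unfold redP
    push_cast
    rw [mul_assoc]
  have hws : ∀ x, abar (sP N x) = - abar x := by
    intro x
    show desc (Gamma0 N) (edge (redP p Hy)) (Sm • x) = - desc (Gamma0 N) (edge (redP p Hy)) x
    rw [desc_smul aR, edge_S hyc hneg hyneg']
    rfl
  obtain ⟨u, huT, hus⟩ := exists_boundary h2 (rP_cube N) (tP_eq N) hortho hwn hws
  -- `redP Hy - pull u` has zero edge
  have hpot := hyc.sub (pull_isPotential (Γ := Gamma0 N) huT)
  rw [sub_zero] at hpot
  have hedge : ∀ g, edge (redP p Hy - pull u) g = 0 := by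
    intro g
    have e1 : edge (redP p Hy) g = abar (QuotientGroup.mk g) := by
      rw [habar, desc_mk aR]
    have e2 := hus (QuotientGroup.mk g)
    show (redP p Hy - pull u) (Sm * g) - (redP p Hy - pull u) g = 0
    simp only [Pi.sub_apply]
    have e3 : pull u (Sm * g) = u (sP N (QuotientGroup.mk g)) := rfl
    have e4 : pull u g = u (QuotientGroup.mk g) := rfl
    rw [e3, e4]
    unfold edge at e1
    linear_combination e1 - e2
  have hzero := eq_zero_of_edge_zero hpot hedge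
  obtain ⟨w, hw, hyw⟩ := exists_eq_nsmul_of_toZModn_eq_zero (Gamma0 N) p y.1 y.2 hzero
  exact ⟨⟨w, hw⟩, Subtype.ext hyw⟩

/-- **Unimodularity** of the form on `Hom_par(Γ₀(N), ℤ)` at every odd prime `p`: if `p` divides
`form b' y` for all `b'`, then `y` is divisible by `p`. -/
theorem form_unimodular' (hp2 : p ≠ 2) (hneg : -1 ∈ Gamma0 N) (y : Lat (Gamma0 N))
    (hdiv : ∀ b' : Lat (Gamma0 N), (p : ℤ) ∣ form (Gamma0 N) b' y) :
    ∃ y' : Lat (Gamma0 N), y = (p : ℤ) • y' :=
  form_unimodular_aux hp2 hneg y hdiv (cuspPot_spec (Gamma0 N) y) (triPot_spec (Gamma0 N) y)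

end Unimodular

section Final

variable {N : ℕ} [NeZero N]

lemma neg_one_mem_Gamma0 (N : ℕ) : (-1 : SL(2, ℤ)) ∈ Gamma0 N := by
  rw [Gamma0_mem]
  simp

variable [Fintype (SL(2, ℤ) ⧸ Gamma0 N)]

/-- **Unimodularity** of the form on `Hom_par(Γ₀(N), ℤ)` at every odd prime `p`
(any `Fintype` instance on the coset space). -/
theorem form_unimodular {p : ℕ} [Fact p.Prime] (hp2 : p ≠ 2) (y : Lat (Gamma0 N))
    (hdiv : ∀ b' : Lat (Gamma0 N), (p : ℤ) ∣ form (Gamma0 N) b' y) :
    ∃ y' : Lat (Gamma0 N), y = (p : ℤ) • y' := by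
  have e : ‹Fintype (SL(2, ℤ) ⧸ Gamma0 N)› = cosetFintype N := Subsingleton.elim _ _
  subst e
  exact form_unimodular' hp2 (neg_one_mem_Gamma0 N) y hdiv

/-- Divisibility of the values by all powers of `3`. -/
lemma three_pow_dvd_of_form_eq_zero (k : ℕ) :
    ∀ y : Lat (Gamma0 N), (∀ b' : Lat (Gamma0 N), form (Gamma0 N) b' y = 0) →
      ∀ a : Additive (Gamma0 N), (3 : ℤ) ^ k ∣ y.1 a := by
  have hneg := neg_one_mem_Gamma0 N
  induction k with
  | zero => intro y _ a; simp
  | succ k ih =>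
    intro y hy a
    have : Fact (Nat.Prime 3) := ⟨Nat.prime_three⟩
    obtain ⟨y', rfl⟩ := form_unimodular (p := 3) (by norm_num) y (fun b' => by rw [hy b']; simp)
    have hy' : ∀ b' : Lat (Gamma0 N), form (Gamma0 N) b' y' = 0 := by
      intro b'
      have := hy b'
      rw [form_smul_right hneg] at this
      rcases mul_eq_zero.mp this with h | h
      · norm_num at h
      · exact h
    obtain ⟨c, hc⟩ := ih y' hy' a
    refine ⟨c, ?_⟩
    show (((3 : ℕ) : ℤ) • y').1 a = 3 ^ (k + 1) * c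
    rw [Submodule.coe_smul, AddMonoidHom.smul_apply, hc, smul_eq_mul]
    push_cast
    ring

/-- The form is right nondegenerate. -/
theorem eq_zero_of_form_eq_zero (y : Lat (Gamma0 N))
    (hy : ∀ b' : Lat (Gamma0 N), form (Gamma0 N) b' y = 0) : y = 0 := by
  apply Subtype.ext
  apply AddMonoidHom.ext
  intro a
  show y.1 a = 0
  have h := three_pow_dvd_of_form_eq_zero (y.1 a).natAbs y hy a
  apply Int.eq_zero_of_dvd_of_natAbs_lt_natAbs h
  rw [Int.natAbs_pow]
  exact Nat.lt_pow_self (by norm_num)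

/-- The form is left nondegenerate. -/
theorem eq_zero_of_form_eq_zero_left (y : Lat (Gamma0 N))
    (hy : ∀ b' : Lat (Gamma0 N), form (Gamma0 N) y b' = 0) : y = 0 := by
  apply eq_zero_of_form_eq_zero
  intro b'
  rw [form_swap (neg_one_mem_Gamma0 N), hy, neg_zero]

/-- The form is nondegenerate. -/
theorem formBil_nondegenerate :
    (formBil (Gamma0 N) (neg_one_mem_Gamma0 N)).Nondegenerate :=
  ⟨fun y hy => eq_zero_of_form_eq_zero_left y hy, fun y hy => eq_zero_of_form_eq_zero y hy⟩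

/-- The perfectness hypothesis of `SK.level_raising_family`. -/
theorem formBil_perfect {p : ℕ} [Fact p.Prime] (hp2 : p ≠ 2) (y : Lat (Gamma0 N))
    (hdiv : ∀ b' : Lat (Gamma0 N), (p : ℤ) ∣ formBil (Gamma0 N) (neg_one_mem_Gamma0 N) b' y) :
    ∃ y' : Lat (Gamma0 N), y = (p : ℤ) • y' :=
  form_unimodular hp2 y hdiv

end Final

end Fermat.Agent.S41lib.PD
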