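/-
S41 (level raising), block PD (the pairing), part 9 (helper6): assembly.

The form-side hypotheses of `SK.level_raising_family`, in the language of `BR.Lattice`, from
* the adjunction `form_resL_coresAL` (PD2),
* unimodularity (PD3),
* the Atkin–Lehner isometry (PD4; here a hypothesis `hAL`).
-/
import Mathlib
import Fermat.Agent.S41lib.PD.Unimodular
import Fermat.Agent.S41lib.PD.ResCoresGamma0

set_option autoImplicit false
set_option linter.unusedSectionVars false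

namespace Fermat.Agent.S41lib.PD

open CongruenceSubgroup ModularCurve.Period
open Fermat.Agent.S41lib.BR Fermat.Agent.S16lib.LG
open scoped MatrixGroups

section Adjoint

variable {N q : ℕ} [NeZero N] [Fact q.Prime] (hqN : ¬ q ∣ N)
variable (x y z w : ℤ) (h : (q : ℤ) * x * w - (N : ℤ) * y * z = 1)
variable [Fintype (SL(2, ℤ) ⧸ Gamma0 N)] [Fintype (SL(2, ℤ) ⧸ Gamma0 (N * q))]

/-- `coresA` is the left adjoint of `res` as well. -/
theorem form_coresAL_resL (b : ↥(VZ (Gamma0 (N * q)))) (a : ↥(VZ (Gamma0 N))) :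
    form (Gamma0 N) (coresAL hqN b) a = form (Gamma0 (N * q)) b (resL N q a) := by
  rw [form_swap (neg_one_mem_Gamma0 N), ← form_resL_coresAL hqN,
    form_swap (neg_one_mem_Gamma0 (N * q)), neg_neg]

/-- `deg` and `coresB` are adjoint, given the Atkin–Lehner isometry. -/
theorem form_degL_coresBL_of_isometry
    (hAL : ∀ b b' : ↥(VZ (Gamma0 (N * q))),
      form (Gamma0 (N * q)) (alWL x y z w h b) (alWL x y z w h b') = form (Gamma0 (N * q)) b b')
    (a : ↥(VZ (Gamma0 N))) (b : ↥(VZ (Gamma0 (N * q)))) :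
    form (Gamma0 (N * q)) (degL hqN a) b = form (Gamma0 N) a (coresBL hqN x y z w h b) := by
  rw [coresBL_def, ← form_resL_coresAL hqN, ← alWL_resL hqN x y z w h]
  conv_lhs => rw [← alWL_alWL x y z w h b]
  exact hAL _ _

/-- The form `Φ_N ⊕ Φ_N` on `L_N × L_N`. -/
noncomputable def formBil2 (N : ℕ) [NeZero N] [Fintype (SL(2, ℤ) ⧸ Gamma0 N)] :
    LinearMap.BilinForm ℤ (↥(VZ (Gamma0 N)) × ↥(VZ (Gamma0 N))) :=
  (formBil (Gamma0 N) (neg_one_mem_Gamma0 N)).compl₁₂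
      (LinearMap.fst ℤ ↥(VZ (Gamma0 N)) ↥(VZ (Gamma0 N)))
      (LinearMap.fst ℤ ↥(VZ (Gamma0 N)) ↥(VZ (Gamma0 N))) +
    (formBil (Gamma0 N) (neg_one_mem_Gamma0 N)).compl₁₂
      (LinearMap.snd ℤ ↥(VZ (Gamma0 N)) ↥(VZ (Gamma0 N)))
      (LinearMap.snd ℤ ↥(VZ (Gamma0 N)) ↥(VZ (Gamma0 N)))

@[simp] lemma formBil2_apply (a a' : ↥(VZ (Gamma0 N)) × ↥(VZ (Gamma0 N))) :
    formBil2 N a a' = form (Gamma0 N) a.1 a'.1 + form (Gamma0 N) a.2 a'.2 := rfl

/-- `hndA` of `SK.level_raising_family`. -/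
theorem formBil2_right_nondeg (a₀ : ↥(VZ (Gamma0 N)) × ↥(VZ (Gamma0 N)))
    (h0 : ∀ a, formBil2 N a a₀ = 0) : a₀ = 0 := by
  have h1 : a₀.1 = 0 := by
    apply eq_zero_of_form_eq_zero
    intro b'
    have := h0 (b', 0)
    rw [formBil2_apply] at this
    have e : form (Gamma0 N) (0 : ↥(VZ (Gamma0 N))) a₀.2 = 0 := by
      have := form_smul_left (neg_one_mem_Gamma0 N) 0 (0 : ↥(VZ (Gamma0 N))) a₀.2
      simpa using this
    simpa [e] using this
  have h2 : a₀.2 = 0 := by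
    apply eq_zero_of_form_eq_zero
    intro b'
    have := h0 (0, b')
    rw [formBil2_apply] at this
    have e : form (Gamma0 N) (0 : ↥(VZ (Gamma0 N))) a₀.1 = 0 := by
      have := form_smul_left (neg_one_mem_Gamma0 N) 0 (0 : ↥(VZ (Gamma0 N))) a₀.1
      simpa using this
    simpa [e] using this
  exact Prod.ext h1 h2

/-- `hadj` of `SK.level_raising_family`. -/
theorem formBil_alphaL_betaL
    (hAL : ∀ b b' : ↥(VZ (Gamma0 (N * q))),
      form (Gamma0 (N * q)) (alWL x y z w h b) (alWL x y z w h b') = form (Gamma0 (N * q)) b b')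
    (a : ↥(VZ (Gamma0 N)) × ↥(VZ (Gamma0 N))) (b : ↥(VZ (Gamma0 (N * q)))) :
    formBil (Gamma0 (N * q)) (neg_one_mem_Gamma0 (N * q)) (alphaL hqN a) b =
      formBil2 N a (betaL hqN x y z w h b) := by
  rw [formBil_apply, formBil2_apply, alphaL_apply, betaL_apply,
    form_add_left (neg_one_mem_Gamma0 (N * q)), form_resL_coresAL hqN,
    form_degL_coresBL_of_isometry hqN x y z w h hAL]

end Adjoint

section SelfAdjoint

variable {M ℓ : ℕ} [NeZero M] (hℓ : ℓ.Prime) (hℓM : ¬ ℓ ∣ M)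
variable [Fintype (SL(2, ℤ) ⧸ Gamma0 M)] [Fintype (SL(2, ℤ) ⧸ Gamma0 (M * ℓ))]

/-- `T_ℓ` is self-adjoint for the form (`ℓ ∤ M`), given the Atkin–Lehner isometry at level
`M ℓ`. -/
theorem form_tL_selfAdjoint [Fact ℓ.Prime]
    (x y z w : ℤ) (h : (ℓ : ℤ) * x * w - (M : ℤ) * y * z = 1)
    (hAL : ∀ b b' : ↥(VZ (Gamma0 (M * ℓ))),
      form (Gamma0 (M * ℓ)) (alWL x y z w h b) (alWL x y z w h b') = form (Gamma0 (M * ℓ)) b b')
    (b b' : ↥(VZ (Gamma0 M))) :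
    form (Gamma0 M) (tL hℓ hℓM b) b' = form (Gamma0 M) b (tL hℓ hℓM b') := by
  have e1 : ∀ a : ↥(VZ (Gamma0 M)), tL hℓ hℓM a = coresAL hℓM (degL hℓM a) :=
    fun a => (coresAL_degL hℓM a).symm
  rw [e1 b, e1 b', form_coresAL_resL hℓM, ← form_resL_coresAL hℓM,
    ← alWL_resL hℓM x y z w h b, ← alWL_resL hℓM x y z w h b']
  have key : ∀ u v : ↥(VZ (Gamma0 (M * ℓ))),
      form (Gamma0 (M * ℓ)) (alWL x y z w h u) v = form (Gamma0 (M * ℓ)) u (alWL x y z w h v) := by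
    intro u v
    have := hAL u (alWL x y z w h v)
    rwa [alWL_alWL] at this
  exact key _ _

/-- Atkin–Lehner data exist. -/
theorem exists_alData (hℓ : ℓ.Prime) (hℓM : ¬ ℓ ∣ M) :
    ∃ x y z w : ℤ, (ℓ : ℤ) * x * w - (M : ℤ) * y * z = 1 := by
  have hcop : IsCoprime (ℓ : ℤ) (M : ℤ) := by
    rw [Int.isCoprime_iff_gcd_eq_one, Int.gcd_natCast_natCast]
    exact (Nat.Prime.coprime_iff_not_dvd hℓ).mpr hℓM
  obtain ⟨u, v, huv⟩ := hcop
  refine ⟨u, -v, 1, 1, ?_⟩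
  linear_combination huv

end SelfAdjoint

section Packaged

/-- **The Atkin–Lehner isometry** (the output of PD4): for all levels `M`, primes `r` and
Atkin–Lehner data, `alWL` preserves the form of level `M r`. -/
def ALIsometry : Prop :=
  ∀ (M r : ℕ) [NeZero M] [Fact r.Prime] (x y z w : ℤ)
    (h : (r : ℤ) * x * w - (M : ℤ) * y * z = 1) [Fintype (SL(2, ℤ) ⧸ Gamma0 (M * r))]
    (b b' : ↥(VZ (Gamma0 (M * r)))),
    form (Gamma0 (M * r)) (alWL x y z w h b) (alWL x y z w h b') = form (Gamma0 (M * r)) b b'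

/-- `hadj` of `SK.level_raising_family` from the Atkin–Lehner isometry. -/
theorem hadj_of_alIsometry (hAL : ALIsometry) {N q : ℕ} [NeZero N] [Fact q.Prime] (hqN : ¬ q ∣ N)
    (x y z w : ℤ) (h : (q : ℤ) * x * w - (N : ℤ) * y * z = 1)
    [Fintype (SL(2, ℤ) ⧸ Gamma0 N)] [Fintype (SL(2, ℤ) ⧸ Gamma0 (N * q))]
    (a : ↥(VZ (Gamma0 N)) × ↥(VZ (Gamma0 N))) (b : ↥(VZ (Gamma0 (N * q)))) :
    formBil (Gamma0 (N * q)) (neg_one_mem_Gamma0 (N * q)) (alphaL hqN a) b =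
      formBil2 N a (betaL hqN x y z w h b) :=
  formBil_alphaL_betaL hqN x y z w h (hAL N q x y z w h) a b

/-- `hsaB` of `SK.level_raising_family` from the Atkin–Lehner isometry. -/
theorem hsaB_of_alIsometry (hAL : ALIsometry) {M ℓ : ℕ} [NeZero M] (hℓ : ℓ.Prime) (hℓM : ¬ ℓ ∣ M)
    [Fintype (SL(2, ℤ) ⧸ Gamma0 M)] (b b' : ↥(VZ (Gamma0 M))) :
    formBil (Gamma0 M) (neg_one_mem_Gamma0 M) (tL hℓ hℓM b) b' =
      formBil (Gamma0 M) (neg_one_mem_Gamma0 M) b (tL hℓ hℓM b') := by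
  have : Fact ℓ.Prime := ⟨hℓ⟩
  have : NeZero (M * ℓ) := neZero_mul M ℓ
  have : Fintype (SL(2, ℤ) ⧸ Gamma0 (M * ℓ)) := Fermat.Agent.ProgramR.Genus.cosetFintype (M * ℓ)
  obtain ⟨x, y, z, w, h⟩ := exists_alData (M := M) hℓ hℓM
  rw [formBil_apply, formBil_apply]
  exact form_tL_selfAdjoint hℓ hℓM x y z w h (hAL M ℓ x y z w h) b b'

end Packaged

end Fermat.Agent.S41lib.PD
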