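/-
S41 (level raising), block PD (the pairing), PD4b (helper9): the X-model identity
("cusp sum formula") for Heisenberg lifts.

`Γ ≤ SL(2,ℤ)` of finite index, `-1 ∈ Γ`, `X = SL(2,ℤ)/Γ`, `φ φ' : Hom_par(Γ, ℤ)`.
A *Heisenberg lift* of `(φ, φ')` with values in a commutative ring `K` is a map `ψ : Γ → K` with
`ψ (γ δ) = ψ γ + ψ δ + φ γ * φ' δ`.  For `x ∈ X` let `w(x)` be the length of the `T`-orbit of `x`
and `cuspElt Γ x = (rep x)⁻¹ T^{w(x)} (rep x) ∈ Γ`.  Then `x ↦ ψ (cuspElt Γ x)` is constant on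
`T`-orbits and

  `2 * ∑_{O ∈ ⟨T⟩ \ X} ψ (cuspElt Γ x_O) = form Γ φ φ'`.

Proof: a second order potential `Ψ` (`Ψ (g γ) = Ψ g + ψ γ + H g * φ' γ`) gives right invariant
functions `e_u g = Ψ (u g) - Ψ g - (H (u g) - H g) * H' g` with
`e_{uv} g = e_u (v g) + e_v g + (H (u v g) - H (v g)) * (H' (v g) - H' g)`, `e_{-1} = 0`.
From `R = T S`, `S² = R³ = -1`:  `J := ∑_X e_T = ∑_X e_R - ∑_X e_S`,  `2 ∑_X e_S = (a, a')`,
`3 ∑_X e_R = (a, a') - (a ∘ R, a')`, hence `6 J = - (a, a') - 2 (a ∘ R, a')`.  The same for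
`(H', H, H H' - Ψ)` (whose `J` is `-J`) and subtraction give `12 J = 2 * triple = 6 * form`.
Finally `∑_X e_T` telescopes along the `T`-orbits to `∑_O ψ (cuspElt x_O)`.
-/
import Mathlib
import Fermat.Agent.S41lib.PD.Pairing

set_option autoImplicit false

namespace Fermat.Agent.S41lib.PD.HeisX

open Fermat.Agent.ProgramR.ES ModularCurve.Period
open scoped MatrixGroups

section HeisGeneric

variable {G : Type*} [Group G] {K : Type*} [CommRing K] {Γ : Subgroup G}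

/-- `ψ` is a Heisenberg lift of the pair `(φ, φ')`:
`ψ (γ δ) = ψ γ + ψ δ + φ γ * φ' δ`. -/
def IsHeisLift (φ φ' : Additive Γ →+ K) (ψ : Γ → K) : Prop :=
  ∀ γ δ : Γ, ψ (γ * δ) = ψ γ + ψ δ + φ (Additive.ofMul γ) * φ' (Additive.ofMul δ)

namespace IsHeisLift

variable {φ φ' : Additive Γ →+ K} {ψ : Γ → K}

lemma map_one (h : IsHeisLift φ φ' ψ) : ψ 1 = 0 := by
  have := h 1 1
  simp only [mul_one, ofMul_one, map_zero, mul_zero, add_zero] at this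
  have h2 : ψ 1 + ψ 1 - ψ 1 = ψ 1 - ψ 1 := by rw [← this]
  simpa using h2

lemma map_inv (h : IsHeisLift φ φ' ψ) (γ : Γ) :
    ψ γ⁻¹ = φ (Additive.ofMul γ) * φ' (Additive.ofMul γ) - ψ γ := by
  have := h γ γ⁻¹
  rw [mul_inv_cancel, h.map_one, ofMul_inv, map_neg] at this
  linear_combination (-1 : K) * this

/-- Conjugation formula. -/
lemma map_conj (h : IsHeisLift φ φ' ψ) (δ γ : Γ) :
    ψ (δ * γ * δ⁻¹) = ψ γ + φ (Additive.ofMul δ) * φ' (Additive.ofMul γ)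
      - φ (Additive.ofMul γ) * φ' (Additive.ofMul δ) := by
  rw [h, h, h.map_inv, ofMul_mul, map_add, ofMul_inv, map_neg]
  ring

/-- On the common kernel of `φ` and `φ'` a Heisenberg lift is a class function. -/
lemma map_conj_of_eq_zero (h : IsHeisLift φ φ' ψ) (δ γ : Γ) (h1 : φ (Additive.ofMul γ) = 0)
    (h2 : φ' (Additive.ofMul γ) = 0) : ψ (δ * γ * δ⁻¹) = ψ γ := by
  rw [h.map_conj, h1, h2]; ring

/-- The swapped lift: `φ φ' - ψ` is a Heisenberg lift of `(φ', φ)`. -/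
lemma swap (h : IsHeisLift φ φ' ψ) :
    IsHeisLift φ' φ (fun γ => φ (Additive.ofMul γ) * φ' (Additive.ofMul γ) - ψ γ) := by
  intro γ δ
  simp only [h γ δ, ofMul_mul, map_add]
  ring

end IsHeisLift

/-- `Ψ` is a second order potential of `ψ` over the potential `H`:
`Ψ (g γ) = Ψ g + ψ γ + H g * φ' γ`. -/
def IsPotential2 (φ' : Additive Γ →+ K) (ψ : Γ → K) (H Ψ : G → K) : Prop :=
  ∀ (g : G) (γ : Γ), Ψ (g * (γ : G)) = Ψ g + ψ γ + H g * φ' (Additive.ofMul γ)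

/-- Second order potentials exist. -/
theorem exists_isPotential2 {P : Subgroup G} {φ φ' : Additive Γ →+ K} {ψ : Γ → K} {H : G → K}
    (h : IsPotential P Γ φ H) (hψ : IsHeisLift φ φ' ψ) :
    ∃ Ψ : G → K, IsPotential2 φ' ψ H Ψ := by
  have hk : ∀ g : G, (rep Γ (QuotientGroup.mk g))⁻¹ * g ∈ Γ := fun g =>
    QuotientGroup.eq.mp (mk_rep Γ _)
  let k : G → Γ := fun g => ⟨_, hk g⟩
  refine ⟨fun g => ψ (k g) + H (rep Γ (QuotientGroup.mk g)) * φ' (Additive.ofMul (k g)), ?_⟩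
  intro g γ
  have e1 : (QuotientGroup.mk (g * (γ : G)) : G ⧸ Γ) = QuotientGroup.mk g :=
    QuotientGroup.mk_mul_of_mem g γ.2
  have e2 : k (g * (γ : G)) = k g * γ := by
    apply Subtype.ext
    show (rep Γ (QuotientGroup.mk (g * (γ : G))))⁻¹ * (g * (γ : G)) =
      (rep Γ (QuotientGroup.mk g))⁻¹ * g * (γ : G)
    rw [e1, mul_assoc]
  have e3 : H g = H (rep Γ (QuotientGroup.mk g)) + φ (Additive.ofMul (k g)) := by
    have := h.mul_right (rep Γ (QuotientGroup.mk g)) (k g)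
    rw [← this]
    congr 1
    show g = rep Γ (QuotientGroup.mk g) * ((rep Γ (QuotientGroup.mk g))⁻¹ * g)
    rw [mul_inv_cancel_left]
  show ψ (k (g * (γ : G))) + H (rep Γ (QuotientGroup.mk (g * (γ : G)))) *
      φ' (Additive.ofMul (k (g * (γ : G)))) =
    ψ (k g) + H (rep Γ (QuotientGroup.mk g)) * φ' (Additive.ofMul (k g)) + ψ γ +
      H g * φ' (Additive.ofMul γ)
  rw [e2, e1, hψ, ofMul_mul, map_add, e3]
  ring

/-- `e_u g = Ψ (u g) - Ψ g - (H (u g) - H g) * H' g`. -/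
def eFn (H H' Ψ : G → K) (u g : G) : K := Ψ (u * g) - Ψ g - (H (u * g) - H g) * H' g

lemma eFn_rightInv {P P' : Subgroup G} {φ φ' : Additive Γ →+ K} {ψ : Γ → K} {H H' Ψ : G → K}
    (h : IsPotential P Γ φ H) (h' : IsPotential P' Γ φ' H') (hΨ : IsPotential2 φ' ψ H Ψ)
    (u : G) : RightInv Γ (eFn H H' Ψ u) := by
  intro g γ
  unfold eFn
  rw [← mul_assoc, hΨ, hΨ, h.mul_right, h.mul_right, h'.mul_right]
  ring

lemma eFn_mul (H H' Ψ : G → K) (u v g : G) :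
    eFn H H' Ψ (u * v) g = eFn H H' Ψ u (v * g) + eFn H H' Ψ v g +
      (H (u * (v * g)) - H (v * g)) * (H' (v * g) - H' g) := by
  unfold eFn
  rw [mul_assoc]
  ring

/-- The swapped second order potential `H H' - Ψ`. -/
lemma IsPotential2.swap {P P' : Subgroup G} {φ φ' : Additive Γ →+ K} {ψ : Γ → K}
    {H H' Ψ : G → K} (h : IsPotential P Γ φ H) (h' : IsPotential P' Γ φ' H')
    (hΨ : IsPotential2 φ' ψ H Ψ) :
    IsPotential2 φ (fun γ => φ (Additive.ofMul γ) * φ' (Additive.ofMul γ) - ψ γ) H'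
      (fun g => H g * H' g - Ψ g) := by
  intro g γ
  show H (g * γ) * H' (g * γ) - Ψ (g * γ) = _
  rw [hΨ, h.mul_right, h'.mul_right]
  ring

end HeisGeneric

section SL2

variable {K : Type*} [CommRing K] {Γ : Subgroup SL(2, ℤ)}
variable {φ φ' : Additive Γ →+ K} {ψ : Γ → K} {H H' Ψ : SL(2, ℤ) → K}

lemma IsPotential2.neg_arg (hΨ : IsPotential2 φ' ψ H Ψ) (hneg : -1 ∈ Γ)
    (hφ' : φ' (Additive.ofMul (⟨-1, hneg⟩ : Γ)) = 0) (hψ1 : ψ ⟨-1, hneg⟩ = 0) (g : SL(2, ℤ)) :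
    Ψ (-g) = Ψ g := by
  have := hΨ g ⟨-1, hneg⟩
  rw [hφ', hψ1, mul_zero, add_zero, add_zero] at this
  rw [← this]
  congr 1
  simp

lemma eFn_neg_one {P : Subgroup SL(2, ℤ)} (h : IsPotential P Γ φ H)
    (hΨ : IsPotential2 φ' ψ H Ψ) (hneg : -1 ∈ Γ)
    (hφ : φ (Additive.ofMul (⟨-1, hneg⟩ : Γ)) = 0)
    (hφ' : φ' (Additive.ofMul (⟨-1, hneg⟩ : Γ)) = 0) (hψ1 : ψ ⟨-1, hneg⟩ = 0) (g : SL(2, ℤ)) :
    eFn H H' Ψ (-1) g = 0 := by
  unfold eFn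
  rw [neg_one_mul, hΨ.neg_arg hneg hφ' hψ1, h.neg_arg hneg hφ]
  ring

lemma eFn_T (h : IsPotential cuspP Γ φ H) (g : SL(2, ℤ)) :
    eFn H H' Ψ Tm g = Ψ (Tm * g) - Ψ g := by
  unfold eFn
  rw [h.mul_left _ T_mem_cuspP]
  ring

lemma eFn_R (h : IsPotential cuspP Γ φ H) (g : SL(2, ℤ)) :
    eFn H H' Ψ Rm g = eFn H H' Ψ Tm (Sm * g) + eFn H H' Ψ Sm g := by
  rw [Rm_def, eFn_mul, h.mul_left _ T_mem_cuspP]
  ring

lemma eFn_S_S (h : IsPotential cuspP Γ φ H)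
    (hΨ : IsPotential2 φ' ψ H Ψ) (hneg : -1 ∈ Γ)
    (hφ : φ (Additive.ofMul (⟨-1, hneg⟩ : Γ)) = 0)
    (hφ' : φ' (Additive.ofMul (⟨-1, hneg⟩ : Γ)) = 0) (hψ1 : ψ ⟨-1, hneg⟩ = 0) (g : SL(2, ℤ)) :
    eFn H H' Ψ Sm (Sm * g) + eFn H H' Ψ Sm g = edge H g * edge H' g := by
  have e := eFn_mul H H' Ψ Sm Sm g
  rw [S_mul_S, eFn_neg_one h hΨ hneg hφ hφ' hψ1, ← mul_assoc Sm Sm g, S_mul_S, neg_one_mul,
    h.neg_arg hneg hφ] at e
  unfold edge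
  linear_combination (-1 : K) * e

lemma eFn_R_R_R (h : IsPotential cuspP Γ φ H) (h' : IsPotential cuspP Γ φ' H')
    (hΨ : IsPotential2 φ' ψ H Ψ) (hneg : -1 ∈ Γ)
    (hφ : φ (Additive.ofMul (⟨-1, hneg⟩ : Γ)) = 0)
    (hφ' : φ' (Additive.ofMul (⟨-1, hneg⟩ : Γ)) = 0) (hψ1 : ψ ⟨-1, hneg⟩ = 0) (g : SL(2, ℤ)) :
    eFn H H' Ψ Rm (Rm * (Rm * g)) + eFn H H' Ψ Rm (Rm * g) + eFn H H' Ψ Rm g =
      edge H g * edge H' g + edge H (Rm * g) * edge H' (Rm * g) + edge H g * edge H' (Rm * g) := by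
  have e1 := eFn_mul H H' Ψ Rm (Rm * Rm) g
  have e2 := eFn_mul H H' Ψ Rm Rm g
  rw [R_cube, eFn_neg_one h hΨ hneg hφ hφ' hψ1] at e1
  have a2 := edge_RR h hneg hφ g
  rw [edge_eq_R h (Rm * (Rm * g)), edge_eq_R h (Rm * g), edge_eq_R h g] at a2
  rw [edge_eq_R h g, edge_eq_R h (Rm * g), edge_eq_R h' g, edge_eq_R h' (Rm * g)]
  rw [mul_assoc Rm Rm g] at e1
  linear_combination (-1 : K) * e1 - e2 - (H' (Rm * (Rm * g)) - H' g) * a2

variable [Fintype (SL(2, ℤ) ⧸ Γ)]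

/-- `J = ∑_X (Ψ (T g) - Ψ g)`. -/
noncomputable def Jsum (Γ : Subgroup SL(2, ℤ)) [Fintype (SL(2, ℤ) ⧸ Γ)]
    (Ψ : SL(2, ℤ) → K) : K :=
  sumX Γ (fun g => Ψ (Tm * g) - Ψ g)

/-- `6 J = (a, a') + 2 (a, a' ∘ R)`. -/
theorem six_mul_Jsum (h : IsPotential cuspP Γ φ H) (h' : IsPotential cuspP Γ φ' H')
    (hΨ : IsPotential2 φ' ψ H Ψ) (hneg : -1 ∈ Γ)
    (hφ : φ (Additive.ofMul (⟨-1, hneg⟩ : Γ)) = 0)
    (hφ' : φ' (Additive.ofMul (⟨-1, hneg⟩ : Γ)) = 0) (hψ1 : ψ ⟨-1, hneg⟩ = 0) :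
    6 * Jsum Γ Ψ = sumX Γ (fun g => edge H g * edge H' g) +
      2 * sumX Γ (fun g => edge H g * edge H' (Rm * g)) := by
  have rT : RightInv Γ (eFn H H' Ψ Tm) := eFn_rightInv h h' hΨ Tm
  have rS : RightInv Γ (eFn H H' Ψ Sm) := eFn_rightInv h h' hΨ Sm
  have rR : RightInv Γ (eFn H H' Ψ Rm) := eFn_rightInv h h' hΨ Rm
  have rP : RightInv Γ (fun g => edge H g * edge H' g) := by
    intro g γ
    show edge H (g * γ) * edge H' (g * γ) = edge H g * edge H' g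
    rw [edge_rightInv h g γ, edge_rightInv h' g γ]
  have hJ : Jsum Γ Ψ = sumX Γ (eFn H H' Ψ Tm) := by
    unfold Jsum
    exact sumX_congr (fun g => (eFn_T h g).symm)
  -- `E_R = E_T + E_S`
  have hR : sumX Γ (eFn H H' Ψ Rm) = sumX Γ (eFn H H' Ψ Tm) + sumX Γ (eFn H H' Ψ Sm) := by
    rw [← sumX_mul_left rT Sm, ← sumX_add']
    exact sumX_congr (eFn_R h)
  -- `2 E_S = (a, a')`
  have hS : 2 * sumX Γ (eFn H H' Ψ Sm) = sumX Γ (fun g => edge H g * edge H' g) := by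
    have e : sumX Γ (fun g => eFn H H' Ψ Sm (Sm * g) + eFn H H' Ψ Sm g) =
        sumX Γ (fun g => edge H g * edge H' g) :=
      sumX_congr (eFn_S_S h hΨ hneg hφ hφ' hψ1)
    rw [sumX_add', sumX_mul_left rS Sm] at e
    rw [← e]; ring
  -- `3 E_R = 2 (a, a') + (a, a' ∘ R)`
  have hRRR : 3 * sumX Γ (eFn H H' Ψ Rm) = 2 * sumX Γ (fun g => edge H g * edge H' g) +
      sumX Γ (fun g => edge H g * edge H' (Rm * g)) := by
    have e : sumX Γ (fun g => eFn H H' Ψ Rm (Rm * (Rm * g)) + eFn H H' Ψ Rm (Rm * g) +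
          eFn H H' Ψ Rm g) =
        sumX Γ (fun g => edge H g * edge H' g + edge H (Rm * g) * edge H' (Rm * g) +
          edge H g * edge H' (Rm * g)) :=
      sumX_congr (eFn_R_R_R h h' hΨ hneg hφ hφ' hψ1)
    rw [sumX_add', sumX_add', sumX_add', sumX_add', sumX_mul_left rR Rm] at e
    have e1 := sumX_mul_left rR (Rm * Rm)
    simp only [mul_assoc] at e1
    have e2 := sumX_mul_left rP Rm
    rw [e1, e2] at e
    linear_combination e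
  rw [hJ]
  linear_combination (-6 : K) * hR - 3 * hS + 2 * hRRR

/-- `12 J = 2 ∑_X (a (g) a' (R g) - a (R g) a' (g))`. -/
theorem twelve_mul_Jsum (h : IsPotential cuspP Γ φ H) (h' : IsPotential cuspP Γ φ' H')
    (hΨ : IsPotential2 φ' ψ H Ψ) (hneg : -1 ∈ Γ)
    (hφ : φ (Additive.ofMul (⟨-1, hneg⟩ : Γ)) = 0)
    (hφ' : φ' (Additive.ofMul (⟨-1, hneg⟩ : Γ)) = 0) (hψ1 : ψ ⟨-1, hneg⟩ = 0) :
    12 * Jsum Γ Ψ =
      2 * sumX Γ (fun g => edge H g * edge H' (Rm * g) - edge H (Rm * g) * edge H' g) := by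
  have e1 := six_mul_Jsum h h' hΨ hneg hφ hφ' hψ1
  have hψ1' : (fun γ : Γ => φ (Additive.ofMul γ) * φ' (Additive.ofMul γ) - ψ γ) ⟨-1, hneg⟩ = 0 := by
    show φ (Additive.ofMul (⟨-1, hneg⟩ : Γ)) * φ' (Additive.ofMul (⟨-1, hneg⟩ : Γ)) -
      ψ ⟨-1, hneg⟩ = 0
    rw [hφ, hψ1]; ring
  have e2 := six_mul_Jsum h' h (hΨ.swap h h') hneg hφ' hφ hψ1'
  have hJ : Jsum Γ (fun g => H g * H' g - Ψ g) = - Jsum Γ Ψ := by
    unfold Jsum
    rw [← sumX_neg]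
    apply sumX_congr
    intro g
    show H (Tm * g) * H' (Tm * g) - Ψ (Tm * g) - (H g * H' g - Ψ g) = -(Ψ (Tm * g) - Ψ g)
    rw [h.mul_left _ T_mem_cuspP, h'.mul_left _ T_mem_cuspP]
    ring
  have hc : sumX Γ (fun g => edge H' g * edge H g) = sumX Γ (fun g => edge H g * edge H' g) :=
    sumX_congr (fun g => mul_comm _ _)
  have hc2 : sumX Γ (fun g => edge H' g * edge H (Rm * g)) =
      sumX Γ (fun g => edge H (Rm * g) * edge H' g) :=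
    sumX_congr (fun g => mul_comm _ _)
  rw [hJ, hc, hc2] at e2
  rw [sumX_sub]
  linear_combination e1 - e2

end SL2

lemma sum_zmod_cast {M : Type*} [AddCommMonoid M] (n : ℕ) [NeZero n] (f : ℤ → M) :
    ∑ k : ZMod n, f (ZMod.cast k : ℤ) = ∑ i ∈ Finset.range n, f (i : ℤ) := by
  cases n with
  | zero => exact absurd rfl (NeZero.ne 0)
  | succ n =>
    rw [← Fin.sum_univ_eq_sum_range (fun i => f (i : ℤ)) (n+1)]
    rfl

section Telescope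

variable {G : Type*} [Group G] (Γ : Subgroup G) [Fintype (G ⧸ Γ)] {M : Type*} [AddCommGroup M]

open MulAction in
/-- Telescoping along the orbits of `t` on `G ⧸ Γ`. -/
theorem sumX_sub_eq_sum_orbits (t : G)
    [Fintype (orbitRel.Quotient (Subgroup.zpowers t) (G ⧸ Γ))] (Ψ : G → M)
    (hF : RightInv Γ (fun g => Ψ (t * g) - Ψ g)) :
    sumX Γ (fun g => Ψ (t * g) - Ψ g) =
      ∑ q : orbitRel.Quotient (Subgroup.zpowers t) (G ⧸ Γ),
        (Ψ (t ^ Function.minimalPeriod (t • ·) q.out * rep Γ q.out) - Ψ (rep Γ q.out)) := by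
  classical
  unfold sumX
  rw [← (Subgroup.quotientEquivSigmaZMod Γ t).symm.sum_comp, Fintype.sum_sigma]
  refine Fintype.sum_congr _ _ (fun q => ?_)
  simp only [Subgroup.quotientEquivSigmaZMod_symm_apply]
  have key : ∀ j : ℤ, Ψ (t * rep Γ (t ^ j • q.out)) - Ψ (rep Γ (t ^ j • q.out)) =
      Ψ (t * (t ^ j * rep Γ q.out)) - Ψ (t ^ j * rep Γ q.out) := by
    intro j
    apply hF.eq_of_mk_eq
    rw [mk_rep, ← smul_mk_eq, mk_rep]
  simp only [key]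
  rw [sum_zmod_cast _ (fun j : ℤ => Ψ (t * (t ^ j * rep Γ q.out)) - Ψ (t ^ j * rep Γ q.out))]
  have := Finset.sum_range_sub (fun i : ℕ => Ψ (t ^ i * rep Γ q.out))
    (Function.minimalPeriod (t • ·) q.out)
  simp only [pow_zero, one_mul] at this
  rw [← this]
  refine Finset.sum_congr rfl (fun i _ => ?_)
  simp only [zpow_natCast, pow_succ', mul_assoc]

end Telescope

section Cusp

variable (Γ : Subgroup SL(2, ℤ))

/-- The width of the cusp through `x`: the length of the `T`-orbit of `x ∈ SL(2,ℤ)/Γ`. -/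
noncomputable def cuspWidth (x : SL(2, ℤ) ⧸ Γ) : ℕ := Function.minimalPeriod (Tm • ·) x

lemma pow_cuspWidth_smul (x : SL(2, ℤ) ⧸ Γ) : Tm ^ cuspWidth Γ x • x = x :=
  MulAction.pow_smul_eq_iff_minimalPeriod_dvd.mpr dvd_rfl

/-- The canonical generator of the stabiliser of the cusp at `x`:
`(rep x)⁻¹ T^{w(x)} (rep x) ∈ Γ`. -/
noncomputable def cuspElt (x : SL(2, ℤ) ⧸ Γ) : Γ := cocElt Γ (Tm ^ cuspWidth Γ x) x

lemma cuspElt_coe (x : SL(2, ℤ) ⧸ Γ) :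
    ((cuspElt Γ x : Γ) : SL(2, ℤ)) = (rep Γ x)⁻¹ * Tm ^ cuspWidth Γ x * rep Γ x := by
  show (rep Γ x)⁻¹ * Tm ^ cuspWidth Γ x * rep Γ ((Tm ^ cuspWidth Γ x)⁻¹ • x) = _
  rw [inv_smul_eq_iff.mpr (pow_cuspWidth_smul Γ x).symm]

lemma rep_mul_cuspElt (x : SL(2, ℤ) ⧸ Γ) :
    rep Γ x * ((cuspElt Γ x : Γ) : SL(2, ℤ)) = Tm ^ cuspWidth Γ x * rep Γ x := by
  rw [cuspElt_coe]; group

lemma pow_mem_cuspP (n : ℕ) : Tm ^ n ∈ cuspP := cuspP.pow_mem T_mem_cuspP n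

variable {Γ}

/-- A homomorphism with a cusp potential kills the elements `cuspElt Γ x`. -/
lemma cuspElt_eq_zero_of_isPotential {A : Type*} [AddCommGroup A] {φ : Additive Γ →+ A}
    {H : SL(2, ℤ) → A} (h : IsPotential cuspP Γ φ H) (x : SL(2, ℤ) ⧸ Γ) :
    φ (Additive.ofMul (cuspElt Γ x)) = 0 := by
  have e1 := h.mul_right (rep Γ x) (cuspElt Γ x)
  rw [rep_mul_cuspElt, h.mul_left _ (pow_mem_cuspP _)] at e1
  have e2 : H (rep Γ x) + 0 = H (rep Γ x) + φ (Additive.ofMul (cuspElt Γ x)) := by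
    rw [add_zero]; exact e1
  exact (add_left_cancel e2).symm

lemma trace_cuspElt (x : SL(2, ℤ) ⧸ Γ) :
    (((cuspElt Γ x : Γ) : SL(2, ℤ)) : Matrix (Fin 2) (Fin 2) ℤ).trace = 2 := by
  rw [cuspElt_coe, Matrix.SpecialLinearGroup.coe_mul, Matrix.trace_mul_comm,
    ← Matrix.SpecialLinearGroup.coe_mul, mul_inv_cancel_left, ← zpow_natCast,
    ModularGroup.coe_T_zpow]
  simp [Matrix.trace_fin_two]

/-- Parabolic homomorphisms kill the elements `cuspElt Γ x`. -/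
lemma cuspElt_eq_zero_of_isParabolicHom {A : Type*} [AddCommGroup A] {φ : Additive Γ →+ A}
    (hφ : IsParabolicHom Γ φ) (x : SL(2, ℤ) ⧸ Γ) : φ (Additive.ofMul (cuspElt Γ x)) = 0 := by
  apply hφ
  rw [trace_cuspElt]; norm_num

end Cusp

section OrbitInv

variable {Γ : Subgroup SL(2, ℤ)}

lemma cuspWidth_smul [Finite (SL(2, ℤ) ⧸ Γ)] (x : SL(2, ℤ) ⧸ Γ) :
    cuspWidth Γ (Tm • x) = cuspWidth Γ x :=
  Function.minimalPeriod_apply ((MulAction.injective Tm).mem_periodicPts x)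

/-- Moving along the `T`-orbit conjugates `cuspElt` inside `Γ`. -/
lemma cuspElt_smul [Finite (SL(2, ℤ) ⧸ Γ)] (x : SL(2, ℤ) ⧸ Γ) :
    ∃ δ : Γ, cuspElt Γ (Tm • x) = δ * cuspElt Γ x * δ⁻¹ := by
  have hmem : (rep Γ (Tm • x))⁻¹ * (Tm * rep Γ x) ∈ Γ := by
    apply QuotientGroup.eq.mp
    rw [mk_rep, ← smul_mk_eq, mk_rep]
  refine ⟨⟨_, hmem⟩, ?_⟩
  apply Subtype.ext
  rw [Subgroup.coe_mul, Subgroup.coe_mul, Subgroup.coe_inv, cuspElt_coe, cuspElt_coe,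
    cuspWidth_smul]
  show _ = (rep Γ (Tm • x))⁻¹ * (Tm * rep Γ x) * ((rep Γ x)⁻¹ * Tm ^ cuspWidth Γ x * rep Γ x) *
    ((rep Γ (Tm • x))⁻¹ * (Tm * rep Γ x))⁻¹
  have hc : Tm * Tm ^ cuspWidth Γ x * Tm⁻¹ = Tm ^ cuspWidth Γ x := by
    rw [← pow_succ', pow_succ, mul_inv_cancel_right]
  calc (rep Γ (Tm • x))⁻¹ * Tm ^ cuspWidth Γ x * rep Γ (Tm • x)
      = (rep Γ (Tm • x))⁻¹ * (Tm * Tm ^ cuspWidth Γ x * Tm⁻¹) * rep Γ (Tm • x) := by rw [hc]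
    _ = _ := by group

/-- A function on `X` invariant under `T` is invariant under all powers of `T`. -/
lemma eq_of_smul_invariant {B : Type*} {F : SL(2, ℤ) ⧸ Γ → B} (hF : ∀ x, F (Tm • x) = F x)
    (n : ℤ) (x : SL(2, ℤ) ⧸ Γ) : F (Tm ^ n • x) = F x := by
  induction n using Int.induction_on with
  | zero => rw [zpow_zero, one_smul]
  | succ n ih => rw [add_comm, zpow_one_add, mul_smul, hF, ih]
  | pred n ih =>
    have e : Tm • (Tm ^ (-(n : ℤ) - 1) • x) = Tm ^ (-(n : ℤ)) • x := by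
      rw [← mul_smul, ← zpow_one_add]
      congr 2
      ring
    rw [← hF, e, ih]

/-- A `T`-invariant function on `X` is constant on the classes of `orbitRel (zpowers T) X`. -/
lemma eq_of_orbitRel_mk_eq {B : Type*} {F : SL(2, ℤ) ⧸ Γ → B} (hF : ∀ x, F (Tm • x) = F x)
    {x y : SL(2, ℤ) ⧸ Γ}
    (hxy : (Quotient.mk'' x : MulAction.orbitRel.Quotient (Subgroup.zpowers Tm) (SL(2, ℤ) ⧸ Γ)) =
      Quotient.mk'' y) : F x = F y := by
  have h1 : x ∈ MulAction.orbit (Subgroup.zpowers Tm) y := by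
    have := Quotient.eq''.mp hxy
    exact MulAction.orbitRel_apply.mp this
  obtain ⟨⟨g, hg⟩, hgy⟩ := MulAction.mem_orbit_iff.mp h1
  obtain ⟨n, rfl⟩ := Subgroup.mem_zpowers_iff.mp hg
  have h2 : Tm ^ n • y = x := hgy
  rw [← h2, eq_of_smul_invariant hF]

variable {K : Type*} [CommRing K] {φ φ' : Additive Γ →+ K} {ψ : Γ → K}

/-- `x ↦ ψ (cuspElt Γ x)` is invariant under `T`, for a Heisenberg lift `ψ` of homomorphisms
killing the `cuspElt`s. -/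
lemma IsHeisLift.cuspElt_smul [Finite (SL(2, ℤ) ⧸ Γ)] (hψ : IsHeisLift φ φ' ψ)
    (hφ : ∀ x, φ (Additive.ofMul (cuspElt Γ x)) = 0)
    (hφ' : ∀ x, φ' (Additive.ofMul (cuspElt Γ x)) = 0) (x : SL(2, ℤ) ⧸ Γ) :
    ψ (cuspElt Γ (Tm • x)) = ψ (cuspElt Γ x) := by
  obtain ⟨δ, hδ⟩ := Fermat.Agent.S41lib.PD.HeisX.cuspElt_smul (Γ := Γ) x
  rw [hδ, hψ.map_conj_of_eq_zero δ _ (hφ x) (hφ' x)]

end OrbitInv

section Main

open MulAction

variable {K : Type*} [CommRing K] {Γ : Subgroup SL(2, ℤ)} [Fintype (SL(2, ℤ) ⧸ Γ)]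
variable [Fintype (orbitRel.Quotient (Subgroup.zpowers Tm) (SL(2, ℤ) ⧸ Γ))]

/-- `J = ∑_X (Ψ (T g) - Ψ g)` is the sum over the `T`-orbits `O` of `ψ ((rep x_O)⁻¹ T^{|O|} rep x_O)`;
in particular it depends neither on `Ψ` nor on the potentials. -/
theorem Jsum_eq_sum_cuspElt {φ φ' : Additive Γ →+ K} {ψ : Γ → K} {H H' Ψ : SL(2, ℤ) → K}
    (h : IsPotential cuspP Γ φ H) (h' : IsPotential cuspP Γ φ' H')
    (hΨ : IsPotential2 φ' ψ H Ψ) :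
    Jsum Γ Ψ = ∑ q : orbitRel.Quotient (Subgroup.zpowers Tm) (SL(2, ℤ) ⧸ Γ),
      ψ (cuspElt Γ q.out) := by
  unfold Jsum
  have hF : RightInv Γ (fun g => Ψ (Tm * g) - Ψ g) := by
    intro g γ
    have e := eFn_rightInv h h' hΨ Tm g γ
    rw [eFn_T h, eFn_T h] at e
    exact e
  rw [sumX_sub_eq_sum_orbits Γ Tm Ψ hF]
  refine Fintype.sum_congr _ _ (fun q => ?_)
  have e1 := hΨ (rep Γ q.out) (cuspElt Γ q.out)
  rw [rep_mul_cuspElt, cuspElt_eq_zero_of_isPotential h'] at e1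
  show Ψ (Tm ^ cuspWidth Γ q.out * rep Γ q.out) - Ψ (rep Γ q.out) = _
  rw [e1]; ring

/-- **The cusp sum formula, general coefficients, before cancellation.**  `φ φ'` integral parabolic
homomorphisms, `ψ : Γ → K` with `ψ (γ δ) = ψ γ + ψ δ + φ γ * φ' δ` and `ψ (-1) = 0`.  Then
`12 * ∑_{T-orbits O} ψ (cuspElt x_O) = 6 * form φ φ'` in `K`. -/
theorem twelve_mul_sum_cuspElt (hneg : -1 ∈ Γ) (φ φ' : Lat Γ) (ψ : Γ → K)
    (hψ : ∀ γ δ : Γ, ψ (γ * δ) = ψ γ + ψ δ +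
      (φ.1 (Additive.ofMul γ) : K) * (φ'.1 (Additive.ofMul δ) : K))
    (hψ1 : ψ ⟨-1, hneg⟩ = 0) :
    12 * ∑ q : orbitRel.Quotient (Subgroup.zpowers Tm) (SL(2, ℤ) ⧸ Γ), ψ (cuspElt Γ q.out) =
      6 * (form Γ φ φ' : K) := by
  -- potentials with values in `K`
  set φK : Additive Γ →+ K := (Int.castAddHom K).comp φ.1 with hφK
  set φK' : Additive Γ →+ K := (Int.castAddHom K).comp φ'.1 with hφK'
  have hH : IsPotential cuspP Γ φK (fun g => ((cuspPot Γ φ g : ℤ) : K)) :=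
    (cuspPot_spec Γ φ).map (Int.castAddHom K)
  have hH' : IsPotential cuspP Γ φK' (fun g => ((cuspPot Γ φ' g : ℤ) : K)) :=
    (cuspPot_spec Γ φ').map (Int.castAddHom K)
  have hlift : IsHeisLift φK φK' ψ := fun γ δ => hψ γ δ
  obtain ⟨Ψ, hΨ⟩ := exists_isPotential2 hH hlift
  have h0 : φK (Additive.ofMul (⟨-1, hneg⟩ : Γ)) = 0 := by
    show ((φ.1 (Additive.ofMul (⟨-1, hneg⟩ : Γ)) : ℤ) : K) = 0
    rw [lat_neg_one hneg φ, Int.cast_zero]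
  have h0' : φK' (Additive.ofMul (⟨-1, hneg⟩ : Γ)) = 0 := by
    show ((φ'.1 (Additive.ofMul (⟨-1, hneg⟩ : Γ)) : ℤ) : K) = 0
    rw [lat_neg_one hneg φ', Int.cast_zero]
  have e := twelve_mul_Jsum hH hH' hΨ hneg h0 h0' hψ1
  rw [Jsum_eq_sum_cuspElt hH hH' hΨ] at e
  rw [e]
  -- the right hand side is the cast of `2 * triple`
  have hcast : sumX Γ (fun g =>
      edge (fun g => ((cuspPot Γ φ g : ℤ) : K)) g * edge (fun g => ((cuspPot Γ φ' g : ℤ) : K)) (Rm * g) -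
      edge (fun g => ((cuspPot Γ φ g : ℤ) : K)) (Rm * g) * edge (fun g => ((cuspPot Γ φ' g : ℤ) : K)) g) =
      ((triple Γ (cuspPot Γ φ) (cuspPot Γ φ') : ℤ) : K) := by
    unfold triple sumX
    rw [Int.cast_sum]
    refine Finset.sum_congr rfl (fun x _ => ?_)
    rw [minorT_eq_R (cuspPot_spec Γ φ) (cuspPot_spec Γ φ')]
    unfold edge
    push_cast
    ring
  rw [hcast, ← three_mul_form' hneg φ φ']
  push_cast
  ring

/-- **The cusp sum formula (PD4b).**  `Γ ∋ -1` of finite index in `SL(2,ℤ)`, `φ φ' ∈ Hom_par(Γ, ℤ)`,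
`K` a commutative domain of characteristic zero (`ℤ`, `ℚ`, ...), `ψ : Γ → K` ANY map with
`ψ (γ δ) = ψ γ + ψ δ + φ γ * φ' δ`.  Then

  `2 * ∑_{q ∈ ⟨T⟩ \ X} ψ ((rep x_q)⁻¹ T^{w(x_q)} rep x_q) = form Γ φ φ'`,    `x_q = q.out`. -/
theorem two_mul_sum_cuspElt [NoZeroDivisors K] [CharZero K] (hneg : -1 ∈ Γ) (φ φ' : Lat Γ)
    (ψ : Γ → K)
    (hψ : ∀ γ δ : Γ, ψ (γ * δ) = ψ γ + ψ δ +
      (φ.1 (Additive.ofMul γ) : K) * (φ'.1 (Additive.ofMul δ) : K)) :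
    2 * ∑ q : orbitRel.Quotient (Subgroup.zpowers Tm) (SL(2, ℤ) ⧸ Γ), ψ (cuspElt Γ q.out) =
      (form Γ φ φ' : K) := by
  have hlift : IsHeisLift ((Int.castAddHom K).comp φ.1) ((Int.castAddHom K).comp φ'.1) ψ :=
    fun γ δ => hψ γ δ
  -- `ψ (-1) = 0`
  have hψ1 : ψ ⟨-1, hneg⟩ = 0 := by
    have e := hψ ⟨-1, hneg⟩ ⟨-1, hneg⟩
    have e1 : (⟨-1, hneg⟩ : Γ) * ⟨-1, hneg⟩ = 1 := by
      apply Subtype.ext
      simp
    rw [e1, hlift.map_one, lat_neg_one hneg φ, Int.cast_zero, zero_mul, add_zero] at e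
    have e2 : (2 : K) * ψ ⟨-1, hneg⟩ = 0 := by rw [two_mul]; exact e.symm
    rcases mul_eq_zero.mp e2 with h2 | h2
    · exact absurd h2 two_ne_zero
    · exact h2
  have e := twelve_mul_sum_cuspElt hneg φ φ' ψ hψ hψ1
  have h6 : (6 : K) ≠ 0 := by norm_num
  apply mul_left_cancel₀ h6
  rw [← e]; ring

omit [Fintype (orbitRel.Quotient (Subgroup.zpowers Tm) (SL(2, ℤ) ⧸ Γ))] in
/-- `x ↦ ψ (cuspElt Γ x)` is a class function for `orbitRel (zpowers T) X`. -/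
theorem psi_cuspElt_eq_of_mk_eq (φ φ' : Lat Γ) (ψ : Γ → K)
    (hψ : ∀ γ δ : Γ, ψ (γ * δ) = ψ γ + ψ δ +
      (φ.1 (Additive.ofMul γ) : K) * (φ'.1 (Additive.ofMul δ) : K))
    {x y : SL(2, ℤ) ⧸ Γ}
    (hxy : (Quotient.mk'' x : orbitRel.Quotient (Subgroup.zpowers Tm) (SL(2, ℤ) ⧸ Γ)) =
      Quotient.mk'' y) : ψ (cuspElt Γ x) = ψ (cuspElt Γ y) := by
  have hlift : IsHeisLift ((Int.castAddHom K).comp φ.1) ((Int.castAddHom K).comp φ'.1) ψ :=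
    fun γ δ => hψ γ δ
  have h1 : ∀ x, ((Int.castAddHom K).comp φ.1) (Additive.ofMul (cuspElt Γ x)) = 0 := by
    intro x
    show ((φ.1 (Additive.ofMul (cuspElt Γ x)) : ℤ) : K) = 0
    rw [cuspElt_eq_zero_of_isParabolicHom φ.2, Int.cast_zero]
  have h2 : ∀ x, ((Int.castAddHom K).comp φ'.1) (Additive.ofMul (cuspElt Γ x)) = 0 := by
    intro x
    show ((φ'.1 (Additive.ofMul (cuspElt Γ x)) : ℤ) : K) = 0
    rw [cuspElt_eq_zero_of_isParabolicHom φ'.2, Int.cast_zero]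
  exact eq_of_orbitRel_mk_eq (F := fun x => ψ (cuspElt Γ x))
    (fun x => hlift.cuspElt_smul h1 h2 x) hxy

/-- The cusp sum formula for an arbitrary system `s` of representatives of the `T`-orbits. -/
theorem two_mul_sum_cuspElt_section [NoZeroDivisors K] [CharZero K] (hneg : -1 ∈ Γ)
    (φ φ' : Lat Γ) (ψ : Γ → K)
    (hψ : ∀ γ δ : Γ, ψ (γ * δ) = ψ γ + ψ δ +
      (φ.1 (Additive.ofMul γ) : K) * (φ'.1 (Additive.ofMul δ) : K))
    (s : orbitRel.Quotient (Subgroup.zpowers Tm) (SL(2, ℤ) ⧸ Γ) → SL(2, ℤ) ⧸ Γ)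
    (hs : ∀ q, Quotient.mk'' (s q) = q) :
    2 * ∑ q : orbitRel.Quotient (Subgroup.zpowers Tm) (SL(2, ℤ) ⧸ Γ), ψ (cuspElt Γ (s q)) =
      (form Γ φ φ' : K) := by
  rw [← two_mul_sum_cuspElt hneg φ φ' ψ hψ]
  congr 1
  refine Fintype.sum_congr _ _ (fun q => ?_)
  apply psi_cuspElt_eq_of_mk_eq φ φ' ψ hψ
  rw [hs q]
  exact (Quotient.out_eq' q).symm

end Main

section NormalForm

/-! ### The statements in normal form

Only `Mathlib`, `ProgramR.ES.cocElt` and PD1's `Lat`, `form` occur in the statements below.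
The hypothesis `hζ` is, verbatim, the unfolding of
`Heis.IsHeisLift ((Int.castAddHom K).comp φ.1) ((Int.castAddHom K).comp φ'.1) ζ` (lead's PD4a),
and `∃ x, Quotient.mk'' x = O ∧ ∃ g, mk g = x ∧ ↑(c O) = g⁻¹ * T ^ period T x * g` is the unfolding
of helper8's `IsCuspSystem Γ c` (PD4c). -/

open MulAction

variable {K : Type*} [CommRing K] [NoZeroDivisors K] [CharZero K]
variable {Γ : Subgroup SL(2, ℤ)} [Fintype (SL(2, ℤ) ⧸ Γ)]
variable [Fintype (Quotient (orbitRel (Subgroup.zpowers ModularGroup.T) (SL(2, ℤ) ⧸ Γ)))]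

/-- **PD4b (cusp sum formula), normal form, canonical cusp elements.** -/
theorem form_eq_two_mul_sum (hneg : -1 ∈ Γ) (φ φ' : Lat Γ) (ζ : ↥Γ → K)
    (hζ : ∀ γ γ' : ↥Γ, ζ (γ * γ') = ζ γ + ζ γ' +
      ((Int.castAddHom K).comp φ.1) (Additive.ofMul γ) *
        ((Int.castAddHom K).comp φ'.1) (Additive.ofMul γ')) :
    (form Γ φ φ' : K) =
      2 * ∑ O : Quotient (orbitRel (Subgroup.zpowers ModularGroup.T) (SL(2, ℤ) ⧸ Γ)),
        ζ (cocElt Γ (ModularGroup.T ^ period ModularGroup.T O.out) O.out) :=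
  (two_mul_sum_cuspElt hneg φ φ' ζ (fun γ δ => hζ γ δ)).symm

omit [NoZeroDivisors K] [CharZero K] [Fintype (SL(2, ℤ) ⧸ Γ)]
  [Fintype (Quotient (orbitRel (Subgroup.zpowers ModularGroup.T) (SL(2, ℤ) ⧸ Γ)))] in
/-- The value of a Heisenberg lift on ANY cusp element at `x` (`g⁻¹ T^{w(x)} g`, `g Γ = x`) is its
value on the canonical one. -/
theorem zeta_eq_of_isCuspElt (φ φ' : Lat Γ) (ζ : ↥Γ → K)
    (hζ : ∀ γ γ' : ↥Γ, ζ (γ * γ') = ζ γ + ζ γ' +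
      ((Int.castAddHom K).comp φ.1) (Additive.ofMul γ) *
        ((Int.castAddHom K).comp φ'.1) (Additive.ofMul γ'))
    {x : SL(2, ℤ) ⧸ Γ} {g : SL(2, ℤ)} (hg : (QuotientGroup.mk g : SL(2, ℤ) ⧸ Γ) = x) {γ : ↥Γ}
    (hγ : (γ : SL(2, ℤ)) = g⁻¹ * ModularGroup.T ^ period ModularGroup.T x * g) :
    ζ γ = ζ (cocElt Γ (ModularGroup.T ^ period ModularGroup.T x) x) := by
  have hlift : IsHeisLift ((Int.castAddHom K).comp φ.1) ((Int.castAddHom K).comp φ'.1) ζ :=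
    fun γ δ => hζ γ δ
  have h1 : ((Int.castAddHom K).comp φ.1) (Additive.ofMul (cuspElt Γ x)) = 0 := by
    show ((φ.1 (Additive.ofMul (cuspElt Γ x)) : ℤ) : K) = 0
    rw [cuspElt_eq_zero_of_isParabolicHom φ.2, Int.cast_zero]
  have h2 : ((Int.castAddHom K).comp φ'.1) (Additive.ofMul (cuspElt Γ x)) = 0 := by
    show ((φ'.1 (Additive.ofMul (cuspElt Γ x)) : ℤ) : K) = 0
    rw [cuspElt_eq_zero_of_isParabolicHom φ'.2, Int.cast_zero]
  have hmem : (rep Γ x)⁻¹ * g ∈ Γ := QuotientGroup.eq.mp ((mk_rep Γ x).trans hg.symm)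
  have hconj : γ = (⟨_, hmem⟩ : Γ)⁻¹ * cuspElt Γ x * (⟨_, hmem⟩ : Γ)⁻¹⁻¹ := by
    apply Subtype.ext
    rw [inv_inv, Subgroup.coe_mul, Subgroup.coe_mul, Subgroup.coe_inv, cuspElt_coe, hγ]
    show g⁻¹ * Tm ^ cuspWidth Γ x * g = ((rep Γ x)⁻¹ * g)⁻¹ *
      ((rep Γ x)⁻¹ * Tm ^ cuspWidth Γ x * rep Γ x) * ((rep Γ x)⁻¹ * g)
    group
  show ζ γ = ζ (cuspElt Γ x)
  rw [hconj, hlift.map_conj_of_eq_zero _ _ h1 h2]

/-- **PD4b (cusp sum formula), normal form, arbitrary system of cusp elements.** -/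
theorem form_eq_two_mul_sum_of_cuspSystem (hneg : -1 ∈ Γ) (φ φ' : Lat Γ) (ζ : ↥Γ → K)
    (hζ : ∀ γ γ' : ↥Γ, ζ (γ * γ') = ζ γ + ζ γ' +
      ((Int.castAddHom K).comp φ.1) (Additive.ofMul γ) *
        ((Int.castAddHom K).comp φ'.1) (Additive.ofMul γ'))
    (c : Quotient (orbitRel (Subgroup.zpowers ModularGroup.T) (SL(2, ℤ) ⧸ Γ)) → ↥Γ)
    (hc : ∀ O, ∃ x : SL(2, ℤ) ⧸ Γ,
      (Quotient.mk'' x : Quotient (orbitRel (Subgroup.zpowers ModularGroup.T) (SL(2, ℤ) ⧸ Γ))) = O ∧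
      ∃ g : SL(2, ℤ), (QuotientGroup.mk g : SL(2, ℤ) ⧸ Γ) = x ∧
        ((c O : ↥Γ) : SL(2, ℤ)) = g⁻¹ * ModularGroup.T ^ period ModularGroup.T x * g) :
    (form Γ φ φ' : K) =
      2 * ∑ O : Quotient (orbitRel (Subgroup.zpowers ModularGroup.T) (SL(2, ℤ) ⧸ Γ)), ζ (c O) := by
  rw [form_eq_two_mul_sum hneg φ φ' ζ hζ]
  congr 1
  refine Fintype.sum_congr _ _ (fun O => ?_)
  obtain ⟨x, hx, g, hg, hγ⟩ := hc O
  rw [zeta_eq_of_isCuspElt φ φ' ζ hζ hg hγ]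
  refine (psi_cuspElt_eq_of_mk_eq φ φ' ζ (fun γ δ => hζ γ δ) ?_).symm
  rw [hx]
  exact (Quotient.out_eq' O).symm

end NormalForm

end Fermat.Agent.S41lib.PD.HeisX
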