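/-
S41 (level raising), block PD (the pairing), part PD4 (lead): **conjugation invariance of the form**.

If `Γ₁, Γ₂ ≤ SL(2, ℤ)` are finite index subgroups containing `-1`, `W` is an integral matrix of
positive determinant and `θ : Γ₁ ≃* Γ₂` satisfies `W γ = θ(γ) W`, then `θ` pulls the form of `Γ₂`
back to the form of `Γ₁`.

Proof: choose a `ℚ`-valued Heisenberg lift `ζ` of `(φ, φ')` on `Γ₂` (PD4a); `ζ ∘ θ` is a Heisenberg
lift of the pulled back pair on `Γ₁`.  By the cusp sum formula (PD4b, helper9) both forms are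
twice the sum of the lift over a system of cusp elements, and `θ` matches the two systems up to
conjugation and a bijection of the cusps (PD4c, helper8); `ζ` is a class function on parabolic
elements.
-/
import Mathlib
import Fermat.Agent.S41lib.PD.Heis.Exists
import Fermat.Agent.S41lib.PD.HeisX
import Fermat.Agent.S41lib.PD.Par.Conj

set_option autoImplicit false

namespace Fermat.Agent.S41lib.PD

open Fermat.Agent.ProgramR.ES ModularCurve.Period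
open scoped MatrixGroups

/-- **PD4: conjugation invariance of the form.** -/
theorem form_conj {Γ₁ Γ₂ : Subgroup SL(2, ℤ)} [Fintype (SL(2, ℤ) ⧸ Γ₁)] [Fintype (SL(2, ℤ) ⧸ Γ₂)]
    (hneg₁ : -1 ∈ Γ₁) (hneg₂ : -1 ∈ Γ₂)
    (W : Matrix (Fin 2) (Fin 2) ℤ) (hW : 0 < W.det) (θ : ↥Γ₁ ≃* ↥Γ₂)
    (hθ : ∀ γ : ↥Γ₁, W * ((γ : SL(2, ℤ)) : Matrix (Fin 2) (Fin 2) ℤ) =
      ((θ γ : SL(2, ℤ)) : Matrix (Fin 2) (Fin 2) ℤ) * W)
    (φ φ' : Lat Γ₂) (χ χ' : Lat Γ₁)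
    (hχ : ∀ γ : ↥Γ₁, χ.1 (Additive.ofMul γ) = φ.1 (Additive.ofMul (θ γ)))
    (hχ' : ∀ γ : ↥Γ₁, χ'.1 (Additive.ofMul γ) = φ'.1 (Additive.ofMul (θ γ))) :
    form Γ₁ χ χ' = form Γ₂ φ φ' := by
  classical
  haveI : Γ₂.FiniteIndex := Subgroup.finiteIndex_of_finite_quotient
  obtain ⟨ζ, hζ⟩ := Heis.exists_heisLift Γ₂ ((Int.castAddHom ℚ).comp φ.1)
    ((Int.castAddHom ℚ).comp φ'.1)
  haveI : Fintype (Par.orbT Γ₁) := Fintype.ofFinite _
  haveI : Fintype (Par.orbT Γ₂) := Fintype.ofFinite _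
  have e2 := HeisX.form_eq_two_mul_sum_of_cuspSystem hneg₂ φ φ' ζ hζ (Par.cuspElt Γ₂)
    (Par.isCuspSystem_cuspElt Γ₂)
  have hζ1 : ∀ γ γ' : ↥Γ₁, (ζ ∘ θ) (γ * γ') = (ζ ∘ θ) γ + (ζ ∘ θ) γ' +
      ((Int.castAddHom ℚ).comp χ.1) (Additive.ofMul γ) *
        ((Int.castAddHom ℚ).comp χ'.1) (Additive.ofMul γ') := by
    intro γ γ'
    have := hζ (θ γ) (θ γ')
    simp only [Function.comp_apply, map_mul, AddMonoidHom.coe_comp, hχ, hχ'] at this ⊢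
    exact this
  have e1 := HeisX.form_eq_two_mul_sum_of_cuspSystem hneg₁ χ χ' (ζ ∘ θ) hζ1 (Par.cuspElt Γ₁)
    (Par.isCuspSystem_cuspElt Γ₁)
  have hF : ∀ δ γ : ↥Γ₂, (γ : SL(2, ℤ)) 0 0 + (γ : SL(2, ℤ)) 1 1 = 2 →
      ζ (δ * γ * δ⁻¹) = ζ γ := by
    intro δ γ hγ
    have htr : ((γ : SL(2, ℤ)) : Matrix (Fin 2) (Fin 2) ℤ).trace ^ 2 = 4 := by
      rw [Matrix.trace_fin_two, hγ]; norm_num
    refine hζ.map_conj_of_ker δ γ ?_ ?_
    · show ((φ.1 (Additive.ofMul γ) : ℤ) : ℚ) = 0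
      rw [φ.2 γ htr, Int.cast_zero]
    · show ((φ'.1 (Additive.ofMul γ) : ℤ) : ℚ) = 0
      rw [φ'.2 γ htr, Int.cast_zero]
  have key := Par.sum_cusp_conj hneg₁ hneg₂ W hW θ hθ (Par.isCuspSystem_cuspElt Γ₁)
    (Par.isCuspSystem_cuspElt Γ₂) ζ hF
  have : ((form Γ₁ χ χ' : ℤ) : ℚ) = ((form Γ₂ φ φ' : ℤ) : ℚ) := by
    rw [e1, e2]
    congr 1
  exact_mod_cast this

end Fermat.Agent.S41lib.PD
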