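/-
S41 (level raising), block PD (the pairing), part PD4 (lead): **the Atkin–Lehner operator is an
isometry of the form** on `L_{N q} = Hom_par(Γ₀(N q), ℤ)`.

`alWL b = b ∘ θ` with `θ γ = W⁻¹ γ W` the Atkin–Lehner automorphism of `Γ₀(N q)`; the adjugate `W'`
of `W` is an integral matrix of determinant `q > 0` with `W' γ = θ(γ) W'`, so `form_conj` applies.
-/
import Mathlib
import Fermat.Agent.S41lib.PD.Conj
import Fermat.Agent.S41lib.BR.Lattice

set_option autoImplicit false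

namespace Fermat.Agent.S41lib.PD

open CongruenceSubgroup ModularCurve.Period
open Fermat.Agent.S41lib.HC Fermat.Agent.S41lib.BR Fermat.Agent.S16lib.LG
open scoped MatrixGroups

/-- the adjugate Atkin–Lehner matrix intertwines `γ` and `W⁻¹ γ W` -/
theorem alMat_adj_mul {N q : ℕ} [NeZero q] (x y z w : ℤ)
    (h : (q : ℤ) * x * w - (N : ℤ) * y * z = 1) (γ : ↥(Gamma0 (N * q))) :
    alMat N q w (-y) (-z) x * ((γ : SL(2, ℤ)) : Matrix (Fin 2) (Fin 2) ℤ) =
      ((alConjMulEquiv x y z w h γ : SL(2, ℤ)) : Matrix (Fin 2) (Fin 2) ℤ) *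
        alMat N q w (-y) (-z) x := by
  have h1 := alMat_mul_alConj w (-y) (-z) x (adj_rel x y z w h) (alConj x y z w h γ)
  rw [alConj_adj_alConj x y z w h γ] at h1
  exact h1

/-- the value of `alWL b` -/
theorem alWL_apply {N q : ℕ} [NeZero N] [Fact q.Prime] (x y z w : ℤ)
    (h : (q : ℤ) * x * w - (N : ℤ) * y * z = 1) (b : ↥(VZ (Gamma0 (N * q))))
    (γ : ↥(Gamma0 (N * q))) :
    (alWL x y z w h b).1 (Additive.ofMul γ) =
      b.1 (Additive.ofMul (alConjMulEquiv x y z w h γ)) := by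
  show (CosetData.ofHom (alConjMulEquiv x y z w h).toMonoidHom).op ℤ b.1 (Additive.ofMul γ) = _
  rw [CosetData.ofHom_op_apply]
  rfl

/-- **The Atkin–Lehner operator is an isometry of the form.** -/
theorem form_alWL {N q : ℕ} [NeZero N] [Fact q.Prime] (x y z w : ℤ)
    (h : (q : ℤ) * x * w - (N : ℤ) * y * z = 1) [Fintype (SL(2, ℤ) ⧸ Gamma0 (N * q))]
    (b b' : ↥(VZ (Gamma0 (N * q)))) :
    form (Gamma0 (N * q)) (alWL x y z w h b) (alWL x y z w h b') = form (Gamma0 (N * q)) b b' := by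
  have hneg : (-1 : SL(2, ℤ)) ∈ Gamma0 (N * q) := by
    rw [Gamma0_mem]
    simp
  have hq : (0 : ℤ) < (q : ℤ) := by exact_mod_cast (Fact.out : q.Prime).pos
  refine form_conj hneg hneg (alMat N q w (-y) (-z) x) ?_ (alConjMulEquiv x y z w h)
    (alMat_adj_mul x y z w h) b b' _ _ (alWL_apply x y z w h b) (alWL_apply x y z w h b')
  rw [det_alMat N q w (-y) (-z) x (adj_rel x y z w h)]
  exact hq

end Fermat.Agent.S41lib.PD
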