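/-
S41 (level raising), block PD (the pairing), part PD4 (lead): the Atkin–Lehner isometry in the
packaged form `PD.ALIsometry` consumed by `PD/Assembly.lean` (helper6).
-/
import Mathlib
import Fermat.Agent.S41lib.PD.AL
import Fermat.Agent.S41lib.PD.Assembly

set_option autoImplicit false

namespace Fermat.Agent.S41lib.PD

/-- **All Atkin–Lehner operators are isometries of the form.** -/
theorem alIsometry : ALIsometry := by
  intro M r _ _ x y z w h _ b b'
  exact form_alWL x y z w h b b'

end Fermat.Agent.S41lib.PD
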